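import Mathlib

/-!
# Row S15, piece I1 (helper662): Liouville's theorem for doubly periodic functions

`exists_const_of_periodic_of_removable`: a function `f : ℂ → ℂ` which is periodic with respect to
the lattice of a `PeriodPair` and which has only removable singularities (near every point it
agrees, on a punctured neighbourhood, with a function analytic at that point) is constant off its
singularities.

Mathlib-only.
-/

set_option autoImplicit false

open Filter Topology

noncomputable section

namespace Fermat.Agent.S15.H662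

/-- two functions continuous at `w` which agree on a punctured neighbourhood of `w` agree at `w` -/
theorem eq_of_eventuallyEq_nhdsNE {g₁ g₂ : ℂ → ℂ} {w : ℂ} (h₁ : ContinuousAt g₁ w)
    (h₂ : ContinuousAt g₂ w) (h : g₁ =ᶠ[𝓝[≠] w] g₂) : g₁ w = g₂ w := by
  have t₁ : Tendsto g₁ (𝓝[≠] w) (𝓝 (g₁ w)) := h₁.tendsto.mono_left nhdsWithin_le_nhds
  have t₂ : Tendsto g₂ (𝓝[≠] w) (𝓝 (g₂ w)) := h₂.tendsto.mono_left nhdsWithin_le_nhds
  exact tendsto_nhds_unique (t₁.congr' h) t₂

/-- **Liouville's theorem for doubly periodic functions** with removable singularities. -/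
theorem exists_const_of_periodic_of_removable (L : PeriodPair) (f : ℂ → ℂ)
    (hper : ∀ z : ℂ, ∀ l ∈ L.lattice, f (z + l) = f z)
    (hrem : ∀ z : ℂ, ∃ g : ℂ → ℂ, AnalyticAt ℂ g z ∧ f =ᶠ[𝓝[≠] z] g) :
    ∃ c : ℂ, ∀ z : ℂ, f =ᶠ[𝓝[≠] z] fun _ => c := by
  classical
  choose g hg hfg using hrem
  -- the regularised function
  set F : ℂ → ℂ := fun z => g z z with hF
  have hFg : ∀ z, F =ᶠ[𝓝 z] g z := by
    intro z
    have h1 : ∀ᶠ w in 𝓝 z, AnalyticAt ℂ (g z) w := (hg z).eventually_analyticAt
    have h2 : ∀ᶠ w in 𝓝 z, w ≠ z → f w = g z w := by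
      have := hfg z
      rw [Filter.EventuallyEq, eventually_nhdsWithin_iff] at this
      exact this
    have h3 : ∀ᶠ w in 𝓝 z, ∀ᶠ v in 𝓝 w, v ≠ z → f v = g z v := h2.eventually_nhds
    filter_upwards [h1, h3] with w hw1 hw3
    by_cases hwz : w = z
    · subst hwz; rfl
    · -- `g w` and `g z` agree on a punctured neighbourhood of `w`
      have hne : ∀ᶠ v in 𝓝 w, v ≠ z := isOpen_ne.mem_nhds hwz
      have h4 : f =ᶠ[𝓝[≠] w] g z := by
        rw [Filter.EventuallyEq, eventually_nhdsWithin_iff]
        filter_upwards [hw3, hne] with v hv hvz _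
        exact hv hvz
      have h5 : g w =ᶠ[𝓝[≠] w] g z := (hfg w).symm.trans h4
      show g w w = g z w
      exact eq_of_eventuallyEq_nhdsNE (hg w).continuousAt hw1.continuousAt h5
  have hFan : ∀ z, AnalyticAt ℂ F z := fun z => (hg z).congr (hFg z).symm
  have hFf : ∀ z, F =ᶠ[𝓝[≠] z] f := fun z =>
    ((hFg z).filter_mono nhdsWithin_le_nhds).trans (hfg z).symm
  have hFdiff : Differentiable ℂ F := fun z => (hFan z).differentiableAt
  have hFper : ∀ z w, w ∈ L.lattice → F (z + w) = F z := by
    intro z w hw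
    -- compare `v ↦ F (v + w)` and `F` near `z`
    have hc1 : ContinuousAt (fun v => F (v + w)) z :=
      (hFdiff.continuous.comp (continuous_id.add continuous_const)).continuousAt
    have hc2 : ContinuousAt F z := hFdiff.continuous.continuousAt
    have hshift : Tendsto (fun v : ℂ => v + w) (𝓝[≠] z) (𝓝[≠] (z + w)) := by
      refine tendsto_nhdsWithin_of_tendsto_nhds_of_eventually_within _ ?_ ?_
      · exact ((continuous_id.add continuous_const).tendsto z).mono_left nhdsWithin_le_nhds
      · filter_upwards [self_mem_nhdsWithin] with v hv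
        simpa using hv
    have h6 : (fun v => F (v + w)) =ᶠ[𝓝[≠] z] fun v => f (v + w) := hshift.eventually (hFf (z + w))
    have h7 : (fun v => F (v + w)) =ᶠ[𝓝[≠] z] F := by
      refine h6.trans (EventuallyEq.trans ?_ (hFf z).symm)
      exact Eventually.of_forall fun v => hper v w hw
    exact eq_of_eventuallyEq_nhdsNE hc1 hc2 h7
  have hbdd : Bornology.IsBounded (Set.range F) :=
    (IsZLattice.isCompact_range_of_periodic L.lattice F hFdiff.continuous hFper).isBounded
  refine ⟨F 0, fun z => ?_⟩
  refine (hFf z).symm.trans (Eventually.of_forall fun v => ?_)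
  exact hFdiff.apply_eq_apply_of_bounded hbdd v 0

/-- Liouville for doubly periodic functions, pointwise form: at points of continuity the value is
the constant. -/
theorem exists_const_of_periodic_of_removable' (L : PeriodPair) (f : ℂ → ℂ)
    (hper : ∀ z : ℂ, ∀ l ∈ L.lattice, f (z + l) = f z)
    (hrem : ∀ z : ℂ, ∃ g : ℂ → ℂ, AnalyticAt ℂ g z ∧ f =ᶠ[𝓝[≠] z] g) :
    ∃ c : ℂ, ∀ z : ℂ, ContinuousAt f z → f z = c := by
  obtain ⟨c, hc⟩ := exists_const_of_periodic_of_removable L f hper hrem
  exact ⟨c, fun z hz => eq_of_eventuallyEq_nhdsNE hz continuousAt_const (hc z)⟩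

end Fermat.Agent.S15.H662

end
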