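import Mathlib
import Fermat.Agent.S15.H662.Liouville

/-!
# Row S15, piece I1 (helper662): half-period translation formula

For a lattice `L` and a half-period `h` (`h ∉ L`, `2 h ∈ L`), with `e = ℘(h)`:

* `derivWeierstrassP_halfPeriod` : `℘'(h) = 0`;
* `exists_halfPeriod_translate` : `(℘(z) - e) (℘(z - h) - e) = κ` is constant;
* `removable_weierstrassP_mul` : `℘ · w` has a removable singularity at `0` when `w` is analytic at
  `0` with `w 0 = 0`, `w' 0 = 0`.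

Mathlib-only.
-/

set_option autoImplicit false

open Filter Topology
open scoped PeriodPair

noncomputable section

namespace Fermat.Agent.S15.H662

/-- an analytic function vanishing to second order at `0` is `z ^ 2` times an analytic function -/
theorem exists_sq_factor {w : ℂ → ℂ} (hw : AnalyticAt ℂ w 0) (h0 : w 0 = 0)
    (h1 : deriv w 0 = 0) :
    ∃ w2 : ℂ → ℂ, AnalyticAt ℂ w2 0 ∧ ∀ᶠ z in 𝓝 (0 : ℂ), w z = z ^ 2 * w2 z := by
  have h2 : ((2 : ℕ) : ℕ∞) ≤ analyticOrderAt w 0 := by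
    rw [natCast_le_analyticOrderAt_iff_iteratedDeriv_eq_zero hw]
    intro i hi
    interval_cases i
    · simpa using h0
    · simpa using h1
  obtain ⟨g, hg, hgw⟩ := (natCast_le_analyticOrderAt hw).mp h2
  refine ⟨g, hg, ?_⟩
  filter_upwards [hgw] with z hz
  simpa using hz

/-- near `0`, away from `0`, no point lies in the lattice -/
theorem eventually_nhdsNE_zero_notMem (L : PeriodPair) :
    ∀ᶠ z in 𝓝[≠] (0 : ℂ), z ∉ L.lattice := by
  have h := L.compl_lattice_sdiff_singleton_mem_nhds 0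
  filter_upwards [mem_nhdsWithin_of_mem_nhds h, self_mem_nhdsWithin] with z hz hz0
  intro hzL
  exact hz ⟨hzL, hz0⟩

/-- `℘ z = ℘[L - 0] z + 1 / z ^ 2` -/
theorem weierstrassP_eq_except_zero (L : PeriodPair) (z : ℂ) :
    ℘[L] z = ℘[L - (0 : ℂ)] z + 1 / z ^ 2 := by
  have h1 := L.weierstrassPExcept_def (0 : L.lattice) z
  simp only [ZeroMemClass.coe_zero, sub_zero, ne_eq, OfNat.ofNat_ne_zero, not_false_eq_true,
    zero_pow, div_zero] at h1
  rw [h1]; ring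

/-- **Removable singularity.** If `w` is analytic at `0` and vanishes there to second order, then
`℘ · w` has a removable singularity at `0`. -/
theorem removable_weierstrassP_mul (L : PeriodPair) {w : ℂ → ℂ} (hw : AnalyticAt ℂ w 0)
    (h0 : w 0 = 0) (h1 : deriv w 0 = 0) :
    ∃ g : ℂ → ℂ, AnalyticAt ℂ g 0 ∧ (fun z => ℘[L] z * w z) =ᶠ[𝓝[≠] (0 : ℂ)] g := by
  obtain ⟨w2, hw2, hww2⟩ := exists_sq_factor hw h0 h1
  have hA : AnalyticAt ℂ ℘[L - (0 : ℂ)] 0 := L.analyticAt_weierstrassPExcept 0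
  refine ⟨fun z => (℘[L - (0 : ℂ)] z * z ^ 2 + 1) * w2 z, by fun_prop, ?_⟩
  filter_upwards [mem_nhdsWithin_of_mem_nhds hww2, self_mem_nhdsWithin] with z hz hz0
  have hz0' : z ≠ 0 := hz0
  show ℘[L] z * w z = (℘[L - (0 : ℂ)] z * z ^ 2 + 1) * w2 z
  rw [hz, weierstrassP_eq_except_zero]
  field_simp

/-- the difference of the `℘`-functions of two lattices has a removable singularity at `0` -/
theorem removable_weierstrassP_sub (L L' : PeriodPair) :
    ∃ g : ℂ → ℂ, AnalyticAt ℂ g 0 ∧ (fun z => ℘[L] z - ℘[L'] z) =ᶠ[𝓝[≠] (0 : ℂ)] g := by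
  have hA : AnalyticAt ℂ ℘[L - (0 : ℂ)] 0 := L.analyticAt_weierstrassPExcept 0
  have hA' : AnalyticAt ℂ ℘[L' - (0 : ℂ)] 0 := L'.analyticAt_weierstrassPExcept 0
  refine ⟨fun z => ℘[L - (0 : ℂ)] z - ℘[L' - (0 : ℂ)] z, by fun_prop, ?_⟩
  filter_upwards with z
  show ℘[L] z - ℘[L'] z = ℘[L - (0 : ℂ)] z - ℘[L' - (0 : ℂ)] z
  rw [weierstrassP_eq_except_zero L, weierstrassP_eq_except_zero L']
  ring

/-- removable singularities are transported by periods -/
theorem removable_add_period {f : ℂ → ℂ} {t z₀ : ℂ} (hper : ∀ z, f (z + t) = f z)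
    (h : ∃ g : ℂ → ℂ, AnalyticAt ℂ g z₀ ∧ f =ᶠ[𝓝[≠] z₀] g) :
    ∃ g : ℂ → ℂ, AnalyticAt ℂ g (z₀ + t) ∧ f =ᶠ[𝓝[≠] (z₀ + t)] g := by
  obtain ⟨g, hg, hfg⟩ := h
  refine ⟨fun z => g (z - t), ?_, ?_⟩
  · have : AnalyticAt ℂ g ((z₀ + t) - t) := by simpa using hg
    exact this.comp (f := fun z => z - t) (by fun_prop)
  · have hshift : Tendsto (fun v : ℂ => v - t) (𝓝[≠] (z₀ + t)) (𝓝[≠] z₀) := by
      refine tendsto_nhdsWithin_of_tendsto_nhds_of_eventually_within _ ?_ ?_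
      · have : Tendsto (fun v : ℂ => v - t) (𝓝 (z₀ + t)) (𝓝 ((z₀ + t) - t)) :=
          (continuous_id.sub continuous_const).tendsto _
        rw [add_sub_cancel_right] at this
        exact this.mono_left nhdsWithin_le_nhds
      · filter_upwards [self_mem_nhdsWithin] with v hv
        intro hv'
        apply hv
        rw [Set.mem_singleton_iff] at hv' ⊢
        linear_combination hv'
    have := hshift.eventually hfg
    filter_upwards [this] with v hv
    rw [← hv, ← hper (v - t), sub_add_cancel]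

/-- an analytic function is its own removable extension -/
theorem removable_of_analyticAt {f : ℂ → ℂ} {z₀ : ℂ} (h : AnalyticAt ℂ f z₀) :
    ∃ g : ℂ → ℂ, AnalyticAt ℂ g z₀ ∧ f =ᶠ[𝓝[≠] z₀] g :=
  ⟨f, h, EventuallyEq.rfl⟩

/-- sums of functions with removable singularities -/
theorem removable_add {f₁ f₂ : ℂ → ℂ} {z₀ : ℂ}
    (h₁ : ∃ g : ℂ → ℂ, AnalyticAt ℂ g z₀ ∧ f₁ =ᶠ[𝓝[≠] z₀] g)
    (h₂ : ∃ g : ℂ → ℂ, AnalyticAt ℂ g z₀ ∧ f₂ =ᶠ[𝓝[≠] z₀] g) :
    ∃ g : ℂ → ℂ, AnalyticAt ℂ g z₀ ∧ (fun z => f₁ z + f₂ z) =ᶠ[𝓝[≠] z₀] g := by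
  obtain ⟨g₁, hg₁, e₁⟩ := h₁
  obtain ⟨g₂, hg₂, e₂⟩ := h₂
  exact ⟨fun z => g₁ z + g₂ z, hg₁.add hg₂, e₁.add e₂⟩

/-- differences of functions with removable singularities -/
theorem removable_sub {f₁ f₂ : ℂ → ℂ} {z₀ : ℂ}
    (h₁ : ∃ g : ℂ → ℂ, AnalyticAt ℂ g z₀ ∧ f₁ =ᶠ[𝓝[≠] z₀] g)
    (h₂ : ∃ g : ℂ → ℂ, AnalyticAt ℂ g z₀ ∧ f₂ =ᶠ[𝓝[≠] z₀] g) :
    ∃ g : ℂ → ℂ, AnalyticAt ℂ g z₀ ∧ (fun z => f₁ z - f₂ z) =ᶠ[𝓝[≠] z₀] g := by
  obtain ⟨g₁, hg₁, e₁⟩ := h₁
  obtain ⟨g₂, hg₂, e₂⟩ := h₂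
  exact ⟨fun z => g₁ z - g₂ z, hg₁.sub hg₂, e₁.sub e₂⟩

/-- constant multiples of functions with removable singularities -/
theorem removable_const_mul {f : ℂ → ℂ} {z₀ : ℂ} (c : ℂ)
    (h : ∃ g : ℂ → ℂ, AnalyticAt ℂ g z₀ ∧ f =ᶠ[𝓝[≠] z₀] g) :
    ∃ g : ℂ → ℂ, AnalyticAt ℂ g z₀ ∧ (fun z => c * f z) =ᶠ[𝓝[≠] z₀] g := by
  obtain ⟨g, hg, e⟩ := h
  exact ⟨fun z => c * g z, analyticAt_const.mul hg, e.fun_comp (fun x => c * x)⟩

/-- `℘'` vanishes at half-periods -/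
theorem derivWeierstrassP_halfPeriod (L : PeriodPair) {h : ℂ} (hh2 : 2 * h ∈ L.lattice) :
    ℘'[L] h = 0 := by
  have h1 : ℘'[L] (h - 2 * h) = ℘'[L] h := L.derivWeierstrassP_sub_coe h ⟨2 * h, hh2⟩
  have h2 : h - 2 * h = -h := by ring
  rw [h2, L.derivWeierstrassP_neg] at h1
  linear_combination -(1 / 2 : ℂ) * h1

/-- `℘ (z - h) = ℘ (z + h)` for a half-period `h` -/
theorem weierstrassP_sub_halfPeriod (L : PeriodPair) {h : ℂ} (hh2 : 2 * h ∈ L.lattice) (z : ℂ) :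
    ℘[L] (z - h) = ℘[L] (z + h) := by
  have h1 : ℘[L] (z - h + 2 * h) = ℘[L] (z - h) := L.weierstrassP_add_coe (z - h) ⟨2 * h, hh2⟩
  rw [← h1]; congr 1; ring

/-- `℘` is analytic at translates: `z ↦ ℘ (z - h)` is analytic at `z₀` if `z₀ - h ∉ L` -/
theorem analyticAt_weierstrassP_sub (L : PeriodPair) {h z₀ : ℂ} (hz : z₀ - h ∉ L.lattice) :
    AnalyticAt ℂ (fun z => ℘[L] (z - h)) z₀ :=
  (L.analyticOnNhd_weierstrassP (z₀ - h) hz).comp (f := fun z => z - h) (by fun_prop)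

/-- **Half-period translation formula**: `(℘(z) - e) (℘(z - h) - e)` is constant, `e = ℘(h)`. -/
theorem exists_halfPeriod_translate (L : PeriodPair) {h : ℂ} (hh : h ∉ L.lattice)
    (hh2 : 2 * h ∈ L.lattice) :
    ∃ κ : ℂ, ∀ z : ℂ, z ∉ L.lattice → z - h ∉ L.lattice →
      (℘[L] z - ℘[L] h) * (℘[L] (z - h) - ℘[L] h) = κ := by
  set e := ℘[L] h with he
  set f : ℂ → ℂ := fun z => (℘[L] z - e) * (℘[L] (z - h) - e) with hf
  have hnegh : -h ∉ L.lattice := fun hm => hh (by simpa using L.lattice.neg_mem hm)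
  have hperL : ∀ z : ℂ, ∀ l ∈ L.lattice, f (z + l) = f z := by
    intro z l hl
    simp only [hf]
    rw [L.weierstrassP_add_coe z ⟨l, hl⟩, show z + l - h = (z - h) + l by ring,
      L.weierstrassP_add_coe (z - h) ⟨l, hl⟩]
  have hperh : ∀ z : ℂ, f (z + h) = f z := by
    intro z
    simp only [hf]
    rw [add_sub_cancel_right, ← weierstrassP_sub_halfPeriod L hh2 z]
    ring
  -- removable singularity at `0`
  have hrem0 : ∃ g : ℂ → ℂ, AnalyticAt ℂ g 0 ∧ f =ᶠ[𝓝[≠] (0 : ℂ)] g := by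
    set w : ℂ → ℂ := fun z => ℘[L] (z - h) - e with hw
    have hwan : AnalyticAt ℂ w 0 :=
      (analyticAt_weierstrassP_sub L (by simpa using hnegh)).sub analyticAt_const
    have hw0 : w 0 = 0 := by
      simp only [hw, zero_sub, L.weierstrassP_neg, he, sub_self]
    have hw1 : deriv w 0 = 0 := by
      have hd : HasDerivAt (fun z => ℘[L] (z - h)) (℘'[L] (0 - h)) 0 := by
        have h1 : HasDerivAt ℘[L] (deriv ℘[L] (0 - h)) (0 - h) :=
          ((L.analyticOnNhd_weierstrassP (0 - h) (by simpa using hnegh)).differentiableAt).hasDerivAt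
        rw [L.deriv_weierstrassP] at h1
        have h2 : HasDerivAt (fun z : ℂ => z - h) 1 0 := (hasDerivAt_id 0).sub_const h
        have h3 := HasDerivAt.comp (0 : ℂ) h1 h2
        rw [mul_one] at h3
        exact h3
      have hd' : HasDerivAt w (℘'[L] (0 - h)) 0 := hd.sub_const e
      rw [hd'.deriv, zero_sub, L.derivWeierstrassP_neg, derivWeierstrassP_halfPeriod L hh2,
        neg_zero]
    have h1 := removable_weierstrassP_mul L hwan hw0 hw1
    have h2 := removable_const_mul e (removable_of_analyticAt hwan)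
    have h3 := removable_sub h1 h2
    obtain ⟨g, hg, hfg⟩ := h3
    refine ⟨g, hg, EventuallyEq.trans (Eventually.of_forall fun z => ?_) hfg⟩
    simp only [hf, hw]
    ring
  have hrem : ∀ z : ℂ, ∃ g : ℂ → ℂ, AnalyticAt ℂ g z ∧ f =ᶠ[𝓝[≠] z] g := by
    intro z
    by_cases hz : z ∈ L.lattice
    · have := removable_add_period (t := z) (z₀ := 0) (fun v => hperL v z hz) hrem0
      simpa using this
    by_cases hz' : z - h ∈ L.lattice
    · have h1 := removable_add_period (t := z - h) (z₀ := 0) (fun v => hperL v _ hz') hrem0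
      have h2 := removable_add_period (t := h) hperh h1
      simpa using h2
    · refine removable_of_analyticAt ?_
      have h1 : AnalyticAt ℂ ℘[L] z := L.analyticOnNhd_weierstrassP z hz
      have h2 : AnalyticAt ℂ (fun v => ℘[L] (v - h)) z := analyticAt_weierstrassP_sub L hz'
      exact (h1.sub analyticAt_const).mul (h2.sub analyticAt_const)
  obtain ⟨κ, hκ⟩ := exists_const_of_periodic_of_removable' L f hperL hrem
  refine ⟨κ, fun z hz hz' => ?_⟩
  have h1 : AnalyticAt ℂ ℘[L] z := L.analyticOnNhd_weierstrassP z hz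
  have h2 : AnalyticAt ℂ (fun v => ℘[L] (v - h)) z := analyticAt_weierstrassP_sub L hz'
  have hc : ContinuousAt f z := ((h1.sub analyticAt_const).mul (h2.sub analyticAt_const)).continuousAt
  exact hκ z hc

end Fermat.Agent.S15.H662

end
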