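import Mathlib
import Fermat.Agent.S15.H662.HalfPeriod

/-!
# Row S15, piece I1 (helper662): the half-period values `e₁, e₂, e₃`

* `halfPeriod_const_ne_zero` : the constant `κ` of the half-period translation formula is `≠ 0`;
* `weierstrassP_ne_of_halfPeriod` : `℘` separates distinct half-periods;
* `e₁ e₂ e₃`, Vieta relations, and `g₂³ - 27 g₃² = 16 ∏ (e_i - e_j)²`.

Mathlib-only.
-/

set_option autoImplicit false

open Filter Topology
open scoped PeriodPair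

noncomputable section

namespace Fermat.Agent.S15.H662

/-- the lattice is countable -/
theorem countable_lattice' (L : PeriodPair) : (L.lattice : Set ℂ).Countable := by
  have : Countable L.lattice := L.latticeEquivProd.toEquiv.countable_iff.mpr inferInstance
  exact Set.countable_coe_iff.mp this

/-- `℘` is not eventually constant near `0` -/
theorem weierstrassP_not_eventually_const (L : PeriodPair) (e : ℂ) :
    ¬ (℘[L] =ᶠ[𝓝[≠] (0 : ℂ)] fun _ => e) := by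
  classical
  intro h
  have h1 := meromorphicOrderAt_congr h
  rw [L.order_weierstrassP 0 (zero_mem _), meromorphicOrderAt_const] at h1
  split_ifs at h1
  · exact absurd h1 (by simp)
  · have : ((-2 : ℤ) : WithTop ℤ) = ((0 : ℤ) : WithTop ℤ) := h1
    exact absurd (WithTop.coe_injective this) (by norm_num)

/-- The constant in the half-period translation formula is nonzero. -/
theorem halfPeriod_const_ne_zero (L : PeriodPair) {h : ℂ} (hh : h ∉ L.lattice)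
    (hh2 : 2 * h ∈ L.lattice) {κ : ℂ}
    (hκ : ∀ z : ℂ, z ∉ L.lattice → z - h ∉ L.lattice →
      (℘[L] z - ℘[L] h) * (℘[L] (z - h) - ℘[L] h) = κ) : κ ≠ 0 := by
  intro h0
  subst h0
  set e := ℘[L] h with he
  set S : Set ℂ := (L.lattice : Set ℂ) ∪ (fun z => z + h) '' (L.lattice : Set ℂ) with hS
  have hScount : S.Countable := (countable_lattice' L).union ((countable_lattice' L).image _)
  have hU : IsPreconnected Sᶜ := by
    refine (Set.Countable.isPathConnected_compl_of_one_lt_rank ?_ hScount).isConnected.isPreconnected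
    rw [Complex.rank_real_complex]
    norm_num
  have hmem : ∀ z, z ∈ Sᶜ ↔ z ∉ L.lattice ∧ z - h ∉ L.lattice := by
    intro z
    simp only [hS, Set.mem_compl_iff, Set.mem_union, SetLike.mem_coe, Set.mem_image, not_or]
    constructor
    · rintro ⟨h1, h2⟩
      exact ⟨h1, fun h3 => h2 ⟨z - h, h3, by ring⟩⟩
    · rintro ⟨h1, h2⟩
      refine ⟨h1, ?_⟩
      rintro ⟨x, hx, rfl⟩
      exact h2 (by simpa using hx)
  have hnegh : -h ∉ L.lattice := fun hm => hh (by simpa using L.lattice.neg_mem hm)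
  have han1 : AnalyticOnNhd ℂ (fun z => ℘[L] z - e) Sᶜ := fun z hz =>
    (L.analyticOnNhd_weierstrassP z ((hmem z).mp hz).1).sub analyticAt_const
  have han2 : AnalyticOnNhd ℂ (fun z => ℘[L] (z - h) - e) Sᶜ := fun z hz =>
    (analyticAt_weierstrassP_sub L ((hmem z).mp hz).2).sub analyticAt_const
  have hprod : ∀ z ∈ Sᶜ, (℘[L] z - e) * (℘[L] (z - h) - e) = 0 := fun z hz =>
    hκ z ((hmem z).mp hz).1 ((hmem z).mp hz).2
  -- in both cases `℘ = e` on `Sᶜ`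
  have hconst : ∀ z ∈ Sᶜ, ℘[L] z = e := by
    rcases AnalyticOnNhd.eq_zero_or_eq_zero_of_mul_eq_zero han1 han2 hprod hU with h1 | h1
    · exact fun z hz => sub_eq_zero.mp (h1 z hz)
    · intro z hz
      have hz' : z + h ∈ Sᶜ := by
        rw [hmem] at hz ⊢
        refine ⟨?_, by simpa using hz.1⟩
        intro h3
        apply hz.2
        have : z - h = (z + h) - 2 * h := by ring
        rw [this]
        exact L.lattice.sub_mem h3 hh2
      have := h1 (z + h) hz'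
      simpa [sub_eq_zero] using this
  -- but `℘` is not constant near `0`
  apply weierstrassP_not_eventually_const L e
  have hev1 := eventually_nhdsNE_zero_notMem L
  have hev2 : ∀ᶠ z in 𝓝[≠] (0 : ℂ), z - h ∉ L.lattice := by
    have hopen : IsOpen {z : ℂ | z - h ∉ L.lattice} := by
      have : {z : ℂ | z - h ∉ L.lattice} = (fun z => z - h) ⁻¹' (L.lattice : Set ℂ)ᶜ := rfl
      rw [this]
      exact L.isClosed_lattice.isOpen_compl.preimage (by fun_prop)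
    exact mem_nhdsWithin_of_mem_nhds (hopen.mem_nhds (by simpa using hnegh))
  filter_upwards [hev1, hev2] with z hz1 hz2
  exact hconst z ((hmem z).mpr ⟨hz1, hz2⟩)

/-- the value of `κ`: for half-periods `h, h'` with `h' ∉ L`, `h' - h ∉ L` we get
`κ = (℘ h' - ℘ h) (℘ (h' - h) - ℘ h)`, and in particular `℘ h' ≠ ℘ h`. -/
theorem weierstrassP_ne_of_halfPeriod (L : PeriodPair) {h h' : ℂ} (hh : h ∉ L.lattice)
    (hh2 : 2 * h ∈ L.lattice) (hh' : h' ∉ L.lattice) (hd : h' - h ∉ L.lattice) :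
    ℘[L] h' ≠ ℘[L] h := by
  obtain ⟨κ, hκ⟩ := exists_halfPeriod_translate L hh hh2
  have hne := halfPeriod_const_ne_zero L hh hh2 hκ
  intro heq
  apply hne
  rw [← hκ h' hh' hd, heq, sub_self, zero_mul]

/-! ### The three half-periods -/

/-- `e₁ = ℘(ω₁/2)` -/
def e₁ (L : PeriodPair) : ℂ := ℘[L] (L.ω₁ / 2)
/-- `e₂ = ℘(ω₂/2)` -/
def e₂ (L : PeriodPair) : ℂ := ℘[L] (L.ω₂ / 2)
/-- `e₃ = ℘(ω₁/2 + ω₂/2)` -/
def e₃ (L : PeriodPair) : ℂ := ℘[L] (L.ω₁ / 2 + L.ω₂ / 2)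

theorem half_add_half_notMem (L : PeriodPair) : L.ω₁ / 2 + L.ω₂ / 2 ∉ L.lattice := by
  have := (L.mul_ω₁_add_mul_ω₂_mem_lattice (α := 1 / 2) (β := 1 / 2)).not.mpr (by norm_num)
  have h : L.ω₁ / 2 + L.ω₂ / 2 = ((1 / 2 : ℚ) : ℂ) * L.ω₁ + ((1 / 2 : ℚ) : ℂ) * L.ω₂ := by
    push_cast; ring
  rw [h]; exact this

theorem half_sub_half_notMem (L : PeriodPair) : L.ω₁ / 2 - L.ω₂ / 2 ∉ L.lattice := by
  have := (L.mul_ω₁_add_mul_ω₂_mem_lattice (α := 1 / 2) (β := -1 / 2)).not.mpr (by norm_num)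
  have h : L.ω₁ / 2 - L.ω₂ / 2 = ((1 / 2 : ℚ) : ℂ) * L.ω₁ + ((-1 / 2 : ℚ) : ℂ) * L.ω₂ := by
    push_cast; ring
  rw [h]; exact this

theorem two_mul_half₁ (L : PeriodPair) : 2 * (L.ω₁ / 2) ∈ L.lattice := by
  rw [mul_div_cancel₀ _ (two_ne_zero)]; exact L.ω₁_mem_lattice

theorem two_mul_half₂ (L : PeriodPair) : 2 * (L.ω₂ / 2) ∈ L.lattice := by
  rw [mul_div_cancel₀ _ (two_ne_zero)]; exact L.ω₂_mem_lattice

theorem two_mul_half₃ (L : PeriodPair) : 2 * (L.ω₁ / 2 + L.ω₂ / 2) ∈ L.lattice := by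
  have : 2 * (L.ω₁ / 2 + L.ω₂ / 2) = L.ω₁ + L.ω₂ := by ring
  rw [this]; exact L.lattice.add_mem L.ω₁_mem_lattice L.ω₂_mem_lattice

theorem e₁_ne_e₂ (L : PeriodPair) : e₁ L ≠ e₂ L :=
  weierstrassP_ne_of_halfPeriod L L.ω₂_div_two_notMem_lattice (two_mul_half₂ L)
    L.ω₁_div_two_notMem_lattice (half_sub_half_notMem L)

theorem e₃_ne_e₁ (L : PeriodPair) : e₃ L ≠ e₁ L :=
  weierstrassP_ne_of_halfPeriod L L.ω₁_div_two_notMem_lattice (two_mul_half₁ L)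
    (half_add_half_notMem L) (by
      have : L.ω₁ / 2 + L.ω₂ / 2 - L.ω₁ / 2 = L.ω₂ / 2 := by ring
      rw [this]; exact L.ω₂_div_two_notMem_lattice)

theorem e₃_ne_e₂ (L : PeriodPair) : e₃ L ≠ e₂ L :=
  weierstrassP_ne_of_halfPeriod L L.ω₂_div_two_notMem_lattice (two_mul_half₂ L)
    (half_add_half_notMem L) (by
      have : L.ω₁ / 2 + L.ω₂ / 2 - L.ω₂ / 2 = L.ω₁ / 2 := by ring
      rw [this]; exact L.ω₁_div_two_notMem_lattice)

/-- `℘ h` is a root of the cubic `4 x³ - g₂ x - g₃` for a half-period `h ∉ L` -/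
theorem cubic_halfPeriod (L : PeriodPair) {h : ℂ} (hh : h ∉ L.lattice)
    (hh2 : 2 * h ∈ L.lattice) : 4 * ℘[L] h ^ 3 - L.g₂ * ℘[L] h - L.g₃ = 0 := by
  have := L.derivWeierstrassP_sq h hh
  rw [derivWeierstrassP_halfPeriod L hh2] at this
  simpa using this.symm

theorem cubic_e₁ (L : PeriodPair) : 4 * e₁ L ^ 3 - L.g₂ * e₁ L - L.g₃ = 0 :=
  cubic_halfPeriod L L.ω₁_div_two_notMem_lattice (two_mul_half₁ L)
theorem cubic_e₂ (L : PeriodPair) : 4 * e₂ L ^ 3 - L.g₂ * e₂ L - L.g₃ = 0 :=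
  cubic_halfPeriod L L.ω₂_div_two_notMem_lattice (two_mul_half₂ L)
theorem cubic_e₃ (L : PeriodPair) : 4 * e₃ L ^ 3 - L.g₂ * e₃ L - L.g₃ = 0 :=
  cubic_halfPeriod L (half_add_half_notMem L) (two_mul_half₃ L)

/-- Vieta: `e₁ + e₂ + e₃ = 0`. -/
theorem e_sum (L : PeriodPair) : e₁ L + e₂ L + e₃ L = 0 := by
  have h1 := cubic_e₁ L
  have h2 := cubic_e₂ L
  have h3 := cubic_e₃ L
  have h12 : e₁ L - e₂ L ≠ 0 := sub_ne_zero.mpr (e₁_ne_e₂ L)
  have h31 : e₃ L - e₁ L ≠ 0 := sub_ne_zero.mpr (e₃_ne_e₁ L)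
  have h32 : e₃ L - e₂ L ≠ 0 := sub_ne_zero.mpr (e₃_ne_e₂ L)
  -- g₂ = 4 (e₁² + e₁ e₂ + e₂²) = 4 (e₁² + e₁ e₃ + e₃²)
  have a : L.g₂ = 4 * (e₁ L ^ 2 + e₁ L * e₂ L + e₂ L ^ 2) := by
    apply mul_left_cancel₀ h12
    linear_combination h2 - h1
  have b : L.g₂ = 4 * (e₁ L ^ 2 + e₁ L * e₃ L + e₃ L ^ 2) := by
    apply mul_left_cancel₀ h31
    linear_combination h1 - h3
  apply mul_left_cancel₀ h32
  linear_combination (-1 / 4 : ℂ) * (b - a)

/-- Vieta: `g₂ = -4 (e₁ e₂ + e₁ e₃ + e₂ e₃)`. -/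
theorem g₂_eq_e (L : PeriodPair) :
    L.g₂ = -4 * (e₁ L * e₂ L + e₁ L * e₃ L + e₂ L * e₃ L) := by
  have h1 := cubic_e₁ L
  have h2 := cubic_e₂ L
  have h12 : e₁ L - e₂ L ≠ 0 := sub_ne_zero.mpr (e₁_ne_e₂ L)
  have a : L.g₂ = 4 * (e₁ L ^ 2 + e₁ L * e₂ L + e₂ L ^ 2) := by
    apply mul_left_cancel₀ h12
    linear_combination h2 - h1
  have hs := e_sum L
  have h3 : e₃ L = -(e₁ L + e₂ L) := by linear_combination hs
  rw [a, h3]; ring

/-- Vieta: `g₃ = 4 e₁ e₂ e₃`. -/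
theorem g₃_eq_e (L : PeriodPair) : L.g₃ = 4 * e₁ L * e₂ L * e₃ L := by
  have h1 := cubic_e₁ L
  have hg := g₂_eq_e L
  have hs := e_sum L
  have h3 : e₃ L = -(e₁ L + e₂ L) := by linear_combination hs
  rw [hg, h3] at h1
  rw [h3]
  linear_combination -h1

/-- factorisation of the Weierstrass cubic -/
theorem cubic_factor (L : PeriodPair) (x : ℂ) :
    4 * x ^ 3 - L.g₂ * x - L.g₃ = 4 * (x - e₁ L) * (x - e₂ L) * (x - e₃ L) := by
  have hs := e_sum L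
  have h3 : e₃ L = -(e₁ L + e₂ L) := by linear_combination hs
  rw [g₂_eq_e L, g₃_eq_e L, h3]
  ring

/-- the lattice discriminant `g₂³ - 27 g₃²` -/
def latDisc (L : PeriodPair) : ℂ := L.g₂ ^ 3 - 27 * L.g₃ ^ 2

/-- `g₂³ - 27 g₃² = 16 (e₁ - e₂)² (e₁ - e₃)² (e₂ - e₃)²` -/
theorem latDisc_eq_e (L : PeriodPair) :
    latDisc L = 16 * ((e₁ L - e₂ L) * (e₁ L - e₃ L) * (e₂ L - e₃ L)) ^ 2 := by
  have hs := e_sum L
  have h3 : e₃ L = -(e₁ L + e₂ L) := by linear_combination hs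
  rw [latDisc, g₂_eq_e L, g₃_eq_e L, h3]
  ring

theorem latDisc_ne_zero (L : PeriodPair) : latDisc L ≠ 0 := by
  rw [latDisc_eq_e]
  have h12 : e₁ L - e₂ L ≠ 0 := sub_ne_zero.mpr (e₁_ne_e₂ L)
  have h13 : e₁ L - e₃ L ≠ 0 := sub_ne_zero.mpr (e₃_ne_e₁ L).symm
  have h23 : e₂ L - e₃ L ≠ 0 := sub_ne_zero.mpr (e₃_ne_e₂ L).symm
  exact mul_ne_zero (by norm_num) (pow_ne_zero _ (mul_ne_zero (mul_ne_zero h12 h13) h23))

/-- `℘'(z)² = 4 (℘ z - e₁)(℘ z - e₂)(℘ z - e₃)` -/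
theorem derivWeierstrassP_sq_factor (L : PeriodPair) {z : ℂ} (hz : z ∉ L.lattice) :
    ℘'[L] z ^ 2 = 4 * (℘[L] z - e₁ L) * (℘[L] z - e₂ L) * (℘[L] z - e₃ L) := by
  rw [L.derivWeierstrassP_sq z hz, cubic_factor]

end Fermat.Agent.S15.H662

end
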