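import Mathlib
import Fermat.Agent.S15.H662.Roots

/-!
# Row S15, piece I1 (helper662): the lattice `L' = L + ℤ ω₁/p`

`divPair L p` is the period pair `(ω₁ / p, ω₂)`; its lattice contains the lattice of `L` with
index `p`.  Membership lemmas for the `p`-division points `k ω₁ / p` and the half-periods.

Mathlib-only.
-/

set_option autoImplicit false

open Filter Topology
open scoped PeriodPair

noncomputable section

namespace Fermat.Agent.S15.H662

/-- the period pair `(ω₁ / p, ω₂)` -/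
def divPair (L : PeriodPair) (p : ℕ) (hp : p ≠ 0) : PeriodPair where
  ω₁ := L.ω₁ / p
  ω₂ := L.ω₂
  indep := by
    have h := L.indep
    rw [LinearIndependent.pair_iff] at h ⊢
    intro s t hst
    have hp' : (p : ℝ) ≠ 0 := by exact_mod_cast hp
    have hpc : (p : ℂ) ≠ 0 := by exact_mod_cast hp
    have key := h (s / p) t (by
      rw [← hst]
      simp only [Complex.real_smul]
      push_cast
      field_simp)
    refine ⟨?_, key.2⟩
    have := key.1
    rw [div_eq_zero_iff] at this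
    exact this.resolve_right hp'

@[simp] lemma divPair_ω₁ (L : PeriodPair) (p : ℕ) (hp : p ≠ 0) :
    (divPair L p hp).ω₁ = L.ω₁ / p := rfl
@[simp] lemma divPair_ω₂ (L : PeriodPair) (p : ℕ) (hp : p ≠ 0) :
    (divPair L p hp).ω₂ = L.ω₂ := rfl

variable (L : PeriodPair) (p : ℕ) (hp : p ≠ 0)

/-- the `p`-division point `ω₁ / p` lies in the big lattice -/
theorem div_mem_divPair : L.ω₁ / p ∈ (divPair L p hp).lattice :=
  (divPair L p hp).ω₁_mem_lattice

/-- `L ≤ L'` -/
theorem lattice_le_divPair : L.lattice ≤ (divPair L p hp).lattice := by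
  have hpc : (p : ℂ) ≠ 0 := by exact_mod_cast hp
  rw [PeriodPair.lattice, Submodule.span_le]
  rintro x (rfl | rfl)
  · have h1 : ((p : ℤ) : ℂ) * (L.ω₁ / p) = L.ω₁ := by
      push_cast; field_simp
    have := (divPair L p hp).lattice.smul_mem (p : ℤ) (div_mem_divPair L p hp)
    rw [zsmul_eq_mul, h1] at this
    exact this
  · exact (divPair L p hp).ω₂_mem_lattice

/-- integer multiples of `ω₁ / p` lie in `L'` -/
theorem mul_div_mem_divPair (k : ℤ) : (k : ℂ) * (L.ω₁ / p) ∈ (divPair L p hp).lattice := by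
  have := (divPair L p hp).lattice.smul_mem k (div_mem_divPair L p hp)
  rwa [zsmul_eq_mul] at this

theorem natMul_div_mem_divPair (k : ℕ) : (k : ℂ) * (L.ω₁ / p) ∈ (divPair L p hp).lattice := by
  have := mul_div_mem_divPair L p hp (k : ℤ)
  simpa using this

/-- rational combinations: membership in `L'` -/
theorem rat_mem_divPair_iff {α β : ℚ} :
    (α : ℂ) * L.ω₁ + (β : ℂ) * L.ω₂ ∈ (divPair L p hp).lattice ↔
      (α * p).den = 1 ∧ β.den = 1 := by
  have hpc : (p : ℂ) ≠ 0 := by exact_mod_cast hp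
  have h := (divPair L p hp).mul_ω₁_add_mul_ω₂_mem_lattice (α := α * p) (β := β)
  rw [← h]
  have : ((α * p : ℚ) : ℂ) * (divPair L p hp).ω₁ + (β : ℂ) * (divPair L p hp).ω₂
      = (α : ℂ) * L.ω₁ + (β : ℂ) * L.ω₂ := by
    simp only [divPair_ω₁, divPair_ω₂]
    push_cast
    field_simp
  rw [this]

/-- `k / p` is not an integer for `0 < k < p` -/
theorem den_div_ne_one {p k : ℕ} (hk0 : 0 < k) (hkp : k < p) : ((k : ℚ) / p).den ≠ 1 := by
  intro hq
  have hp : p ≠ 0 := by omega
  have hpq : (p : ℚ) ≠ 0 := by exact_mod_cast hp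
  obtain ⟨m, hm⟩ : ∃ m : ℤ, ((k : ℚ) / p) = m := ⟨((k : ℚ) / p).num, by
    conv_lhs => rw [← Rat.num_div_den ((k : ℚ) / p), hq]
    simp⟩
  have hkm : (k : ℚ) = m * p := by
    field_simp at hm
    linear_combination hm
  have hkm' : (k : ℤ) = m * p := by exact_mod_cast hkm
  have hm0 : 0 < m := by
    by_contra hneg
    have hneg' : m ≤ 0 := not_lt.mp hneg
    have : (k : ℤ) ≤ 0 := by
      rw [hkm']
      exact mul_nonpos_of_nonpos_of_nonneg hneg' (by positivity)
    omega
  have : (p : ℤ) ≤ k := by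
    rw [hkm']
    nlinarith
  omega

/-- `k ω₁ / p ∉ L` for `0 < k < p` -/
theorem natMul_div_notMem {k : ℕ} (hk0 : 0 < k) (hkp : k < p) :
    (k : ℂ) * (L.ω₁ / p) ∉ L.lattice := by
  have hp : p ≠ 0 := by omega
  have hpc : (p : ℂ) ≠ 0 := by exact_mod_cast hp
  have h := (L.mul_ω₁_add_mul_ω₂_mem_lattice (α := (k : ℚ) / p) (β := 0)).not.mpr
    (fun h1 => den_div_ne_one hk0 hkp h1.1)
  have e : (k : ℂ) * (L.ω₁ / p) = (((k : ℚ) / p : ℚ) : ℂ) * L.ω₁ + ((0 : ℚ) : ℂ) * L.ω₂ := by
    push_cast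
    field_simp
    ring
  rw [e]
  exact h

end Fermat.Agent.S15.H662

end
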