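import Mathlib
import Fermat.Agent.S15.H662.SubLattice

/-!
# Row S15, piece I1 (helper662): the norm formula for the isogeny `ℂ/L → ℂ/L'`

For `a = ω₁ / p`, `L' = L + ℤ a` and `h ∉ L'`:

  `∏_{k < p} (℘_L (z + k a) - ℘_L h) = (∏_{k < p - 1} (℘_L ((k+1) a) - ℘_L h)) · (℘_{L'} z - ℘_{L'} h)`

for all `z ∉ L'` (`normProd_eq`).  Proof: Liouville on `ℂ / L'`.

Mathlib-only.
-/

set_option autoImplicit false

open Filter Topology
open scoped PeriodPair

noncomputable section

namespace Fermat.Agent.S15.H662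

/-- `R(z) = ∏_{k<p} (℘_L(z + k a) - e)`, `a = ω₁ / p` -/
def normProd (L : PeriodPair) (p : ℕ) (e : ℂ) (z : ℂ) : ℂ :=
  ∏ k ∈ Finset.range p, (℘[L] (z + (k : ℂ) * (L.ω₁ / p)) - e)

/-- `B(z) = ∏_{k<p-1} (℘_L(z + (k+1) a) - e)`, `a = ω₁ / p` -/
def normProdTail (L : PeriodPair) (p : ℕ) (e : ℂ) (z : ℂ) : ℂ :=
  ∏ k ∈ Finset.range (p - 1), (℘[L] (z + ((k + 1 : ℕ) : ℂ) * (L.ω₁ / p)) - e)

/-- the derivative of an even function vanishes at `0` -/
theorem deriv_zero_of_even {B : ℂ → ℂ} (h : ∀ z, B (-z) = B z) : deriv B 0 = 0 := by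
  have h1 : deriv (fun x => B (-x)) 0 = -deriv B (-0) := deriv_comp_neg (f := B) (x := 0)
  have h2 : (fun x => B (-x)) = B := funext h
  rw [h2, neg_zero] at h1
  linear_combination (1 / 2 : ℂ) * h1

/-- periodicity with respect to both periods gives periodicity with respect to the lattice -/
theorem periodic_of_periods (L : PeriodPair) (f : ℂ → ℂ) (h1 : ∀ z, f (z + L.ω₁) = f z)
    (h2 : ∀ z, f (z + L.ω₂) = f z) : ∀ z : ℂ, ∀ l ∈ L.lattice, f (z + l) = f z := by
  intro z l hl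
  obtain ⟨m, n, rfl⟩ := PeriodPair.mem_lattice.mp hl
  have p1 : Function.Periodic f L.ω₁ := h1
  have p2 : Function.Periodic f L.ω₂ := h2
  exact ((p1.int_mul m).add_period (p2.int_mul n)) z

variable (L : PeriodPair) (p : ℕ) (e : ℂ)

theorem normProd_eq_tail_mul (hp : p ≠ 0) (z : ℂ) :
    normProd L p e z = normProdTail L p e z * (℘[L] z - e) := by
  obtain ⟨n, rfl⟩ : ∃ n, p = n + 1 := ⟨p - 1, by omega⟩
  rw [normProd, normProdTail, Finset.prod_range_succ', Nat.add_sub_cancel]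
  simp

theorem normProd_add_lattice (z : ℂ) {l : ℂ} (hl : l ∈ L.lattice) :
    normProd L p e (z + l) = normProd L p e z := by
  rw [normProd, normProd]
  refine Finset.prod_congr rfl fun k _ => ?_
  rw [show z + l + (k : ℂ) * (L.ω₁ / p) = (z + (k : ℂ) * (L.ω₁ / p)) + l by ring,
    L.weierstrassP_add_coe _ ⟨l, hl⟩]

theorem normProd_add_div (hp : p ≠ 0) (z : ℂ) :
    normProd L p e (z + L.ω₁ / p) = normProd L p e z := by
  have hpc : (p : ℂ) ≠ 0 := by exact_mod_cast hp
  obtain ⟨n, rfl⟩ : ∃ n, p = n + 1 := ⟨p - 1, by omega⟩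
  set G : ℕ → ℂ := fun k => ℘[L] (z + (k : ℂ) * (L.ω₁ / (n + 1 : ℕ))) - e with hG
  have hL : normProd L (n + 1) e (z + L.ω₁ / (n + 1 : ℕ)) = ∏ k ∈ Finset.range (n + 1), G (k + 1) := by
    rw [normProd]
    refine Finset.prod_congr rfl fun k _ => ?_
    simp only [hG]
    congr 2
    push_cast
    ring
  have hR : normProd L (n + 1) e z = ∏ k ∈ Finset.range (n + 1), G k := rfl
  rw [hL, hR, Finset.prod_range_succ, Finset.prod_range_succ']
  congr 1
  simp only [hG]
  have : z + ((n + 1 : ℕ) : ℂ) * (L.ω₁ / (n + 1 : ℕ)) = z + L.ω₁ := by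
    congr 1
    field_simp
  rw [this, L.weierstrassP_add_coe z ⟨L.ω₁, L.ω₁_mem_lattice⟩]
  simp

/-- `R` is periodic with respect to `L'` -/
theorem normProd_add_divPair (hp : p ≠ 0) (z : ℂ) {l : ℂ} (hl : l ∈ (divPair L p hp).lattice) :
    normProd L p e (z + l) = normProd L p e z := by
  refine periodic_of_periods (divPair L p hp) (normProd L p e) ?_ ?_ z l hl
  · intro z
    exact normProd_add_div L p e hp z
  · intro z
    exact normProd_add_lattice L p e z L.ω₂_mem_lattice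

/-- the tail `B` is even -/
theorem normProdTail_neg (hp : p ≠ 0) (z : ℂ) :
    normProdTail L p e (-z) = normProdTail L p e z := by
  have hpc : (p : ℂ) ≠ 0 := by exact_mod_cast hp
  rw [normProdTail, normProdTail]
  rw [← Finset.prod_range_reflect (fun k => ℘[L] (z + ((k + 1 : ℕ) : ℂ) * (L.ω₁ / p)) - e) (p - 1)]
  refine Finset.prod_congr rfl fun k hk => ?_
  have hk' : k < p - 1 := Finset.mem_range.mp hk
  congr 1
  -- `℘ (-z + (k+1) a) = ℘ (z - (k+1) a) = ℘ (z - (k+1) a + ω₁)`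
  have h1 : ℘[L] (-z + ((k + 1 : ℕ) : ℂ) * (L.ω₁ / p))
      = ℘[L] (z - ((k + 1 : ℕ) : ℂ) * (L.ω₁ / p)) := by
    rw [← L.weierstrassP_neg]
    congr 1
    ring
  rw [h1, ← L.weierstrassP_add_coe _ ⟨L.ω₁, L.ω₁_mem_lattice⟩]
  congr 1
  have hcast : ((p - 1 - 1 - k + 1 : ℕ) : ℂ) = (p : ℂ) - ((k + 1 : ℕ) : ℂ) := by
    have : p - 1 - 1 - k + 1 = p - (k + 1) := by omega
    rw [this, Nat.cast_sub (by omega)]
  rw [hcast]
  field_simp
  ring

theorem analyticAt_normProdTail_zero (_hp : p ≠ 0) : AnalyticAt ℂ (normProdTail L p e) 0 := by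
  unfold normProdTail
  refine Finset.analyticAt_fun_prod _ fun k hk => ?_
  have hk' : k < p - 1 := Finset.mem_range.mp hk
  have hnot : ((k + 1 : ℕ) : ℂ) * (L.ω₁ / p) ∉ L.lattice :=
    natMul_div_notMem L p (by omega) (by omega)
  have h1 : AnalyticAt ℂ ℘[L] (0 + ((k + 1 : ℕ) : ℂ) * (L.ω₁ / p)) := by
    rw [zero_add]; exact L.analyticOnNhd_weierstrassP _ hnot
  have h2 : AnalyticAt ℂ (fun z : ℂ => z + ((k + 1 : ℕ) : ℂ) * (L.ω₁ / p)) 0 := by fun_prop
  exact (h1.comp (f := fun z : ℂ => z + ((k + 1 : ℕ) : ℂ) * (L.ω₁ / p)) h2).sub analyticAt_const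

theorem analyticAt_normProd (hp : p ≠ 0) {z₀ : ℂ} (hz : z₀ ∉ (divPair L p hp).lattice) :
    AnalyticAt ℂ (normProd L p e) z₀ := by
  unfold normProd
  refine Finset.analyticAt_fun_prod _ fun k _ => ?_
  have hnot : z₀ + (k : ℂ) * (L.ω₁ / p) ∉ L.lattice := by
    intro hmem
    apply hz
    have h1 := lattice_le_divPair L p hp hmem
    have h2 := natMul_div_mem_divPair L p hp k
    have := (divPair L p hp).lattice.sub_mem h1 h2
    simpa using this
  have h1 : AnalyticAt ℂ ℘[L] (z₀ + (k : ℂ) * (L.ω₁ / p)) := L.analyticOnNhd_weierstrassP _ hnot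
  have h2 : AnalyticAt ℂ (fun z : ℂ => z + (k : ℂ) * (L.ω₁ / p)) z₀ := by fun_prop
  exact (h1.comp (f := fun z : ℂ => z + (k : ℂ) * (L.ω₁ / p)) h2).sub analyticAt_const

/-- **Norm formula.** -/
theorem normProd_eq (hp : p ≠ 0) {h : ℂ} (hh : h ∉ (divPair L p hp).lattice) {z : ℂ}
    (hz : z ∉ (divPair L p hp).lattice) :
    normProd L p (℘[L] h) z =
      normProdTail L p (℘[L] h) 0 * (℘[divPair L p hp] z - ℘[divPair L p hp] h) := by
  set L' := divPair L p hp with hL'
  set e := ℘[L] h with he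
  set e' := ℘[L'] h with he'
  set c := normProdTail L p e 0 with hc
  set f : ℂ → ℂ := fun z => normProd L p e z - c * (℘[L'] z - e') with hf
  have hper : ∀ z : ℂ, ∀ l ∈ L'.lattice, f (z + l) = f z := by
    intro z l hl
    simp only [hf]
    rw [normProd_add_divPair L p e hp z hl, L'.weierstrassP_add_coe z ⟨l, hl⟩]
  have han : ∀ z₀ : ℂ, z₀ ∉ L'.lattice → AnalyticAt ℂ f z₀ := by
    intro z₀ hz₀
    have h1 := analyticAt_normProd L p e hp hz₀
    have h2 : AnalyticAt ℂ ℘[L'] z₀ := L'.analyticOnNhd_weierstrassP z₀ hz₀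
    exact h1.sub (analyticAt_const.mul (h2.sub analyticAt_const))
  -- removable singularity at `0`
  have hrem0 : ∃ g : ℂ → ℂ, AnalyticAt ℂ g 0 ∧ f =ᶠ[𝓝[≠] (0 : ℂ)] g := by
    set w : ℂ → ℂ := fun z => normProdTail L p e z - c with hw
    have hBan := analyticAt_normProdTail_zero L p e hp
    have hwan : AnalyticAt ℂ w 0 := hBan.sub analyticAt_const
    have hw0 : w 0 = 0 := by simp only [hw, hc, sub_self]
    have hw1 : deriv w 0 = 0 := by
      apply deriv_zero_of_even
      intro z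
      simp only [hw]
      rw [normProdTail_neg L p e hp]
    have r1 := removable_weierstrassP_mul L hwan hw0 hw1
    have r2 := removable_const_mul c (removable_weierstrassP_sub L L')
    have r3 := removable_const_mul e (removable_of_analyticAt hBan)
    have r4 := removable_sub (removable_add r1 r2) r3
    have r5 := removable_add r4 (removable_of_analyticAt (analyticAt_const (v := c * e') (x := (0 : ℂ))))
    obtain ⟨g, hg, hfg⟩ := r5
    refine ⟨g, hg, EventuallyEq.trans (Eventually.of_forall fun z => ?_) hfg⟩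
    simp only [hf, hw]
    rw [normProd_eq_tail_mul L p e hp]
    ring
  have hrem : ∀ z : ℂ, ∃ g : ℂ → ℂ, AnalyticAt ℂ g z ∧ f =ᶠ[𝓝[≠] z] g := by
    intro z
    by_cases hz : z ∈ L'.lattice
    · have := removable_add_period (t := z) (z₀ := 0) (fun v => hper v z hz) hrem0
      simpa using this
    · exact removable_of_analyticAt (han z hz)
  obtain ⟨d, hd⟩ := exists_const_of_periodic_of_removable' L' f hper hrem
  have hd0 : d = 0 := by
    rw [← hd h (han h hh).continuousAt]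
    simp only [hf]
    rw [normProd_eq_tail_mul L p e hp, he, he']
    ring
  have := hd z (han z hz).continuousAt
  rw [hd0] at this
  simp only [hf] at this
  linear_combination this

end Fermat.Agent.S15.H662

end
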