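import Mathlib
import Fermat.Agent.S15.H662.NormFormula

/-!
# Row S15, piece I1 (helper662): the discriminant of the quotient lattice

`latDisc_divPair` : for `p` odd, `a = ω₁ / p`, `L' = L + ℤ a`:

  `Δ(L') · (∏_{0 < k < p} ℘'_L (k a)) ^ 4 = Δ(L) ^ p`,     `Δ = g₂³ - 27 g₃²`.

Mathlib-only.
-/

set_option autoImplicit false

open Filter Topology
open scoped PeriodPair

noncomputable section

namespace Fermat.Agent.S15.H662

/-! ### explicit half-period translation formulas -/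

/-- the constant of the half-period translation formula, computed at a second half-period -/
theorem halfPeriod_translate_eq (L : PeriodPair) {h h' : ℂ} (hh : h ∉ L.lattice)
    (hh2 : 2 * h ∈ L.lattice) (hh' : h' ∉ L.lattice) (hd : h' - h ∉ L.lattice) {z : ℂ}
    (hz : z ∉ L.lattice) (hzh : z - h ∉ L.lattice) :
    (℘[L] z - ℘[L] h) * (℘[L] (z - h) - ℘[L] h) =
      (℘[L] h' - ℘[L] h) * (℘[L] (h' - h) - ℘[L] h) := by
  obtain ⟨κ, hκ⟩ := exists_halfPeriod_translate L hh hh2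
  rw [hκ z hz hzh, hκ h' hh' hd]

theorem half_sub_half_notMem' (L : PeriodPair) : L.ω₂ / 2 - L.ω₁ / 2 ∉ L.lattice := by
  intro h
  apply half_sub_half_notMem L
  have := L.lattice.neg_mem h
  simpa using this

theorem weierstrassP_half_sub_half (L : PeriodPair) : ℘[L] (L.ω₂ / 2 - L.ω₁ / 2) = e₃ L := by
  rw [← L.weierstrassP_add_coe _ ⟨L.ω₁, L.ω₁_mem_lattice⟩, e₃]
  congr 1
  ring

theorem weierstrassP_half_sub_half' (L : PeriodPair) : ℘[L] (L.ω₁ / 2 - L.ω₂ / 2) = e₃ L := by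
  rw [← L.weierstrassP_add_coe _ ⟨L.ω₂, L.ω₂_mem_lattice⟩, e₃]
  congr 1
  ring

theorem translate₁ (L : PeriodPair) {z : ℂ} (hz : z ∉ L.lattice)
    (hzh : z - L.ω₁ / 2 ∉ L.lattice) :
    (℘[L] z - e₁ L) * (℘[L] (z - L.ω₁ / 2) - e₁ L) = (e₁ L - e₂ L) * (e₁ L - e₃ L) := by
  have := halfPeriod_translate_eq L L.ω₁_div_two_notMem_lattice (two_mul_half₁ L)
    L.ω₂_div_two_notMem_lattice (half_sub_half_notMem' L) hz hzh
  rw [weierstrassP_half_sub_half] at this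
  simp only [e₁, e₂] at this ⊢
  rw [this]; ring

theorem translate₂ (L : PeriodPair) {z : ℂ} (hz : z ∉ L.lattice)
    (hzh : z - L.ω₂ / 2 ∉ L.lattice) :
    (℘[L] z - e₂ L) * (℘[L] (z - L.ω₂ / 2) - e₂ L) = (e₂ L - e₁ L) * (e₂ L - e₃ L) := by
  have := halfPeriod_translate_eq L L.ω₂_div_two_notMem_lattice (two_mul_half₂ L)
    L.ω₁_div_two_notMem_lattice (half_sub_half_notMem L) hz hzh
  rw [weierstrassP_half_sub_half'] at this
  simp only [e₁, e₂] at this ⊢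
  rw [this]; ring

theorem translate₃ (L : PeriodPair) {z : ℂ} (hz : z ∉ L.lattice)
    (hzh : z - (L.ω₁ / 2 + L.ω₂ / 2) ∉ L.lattice) :
    (℘[L] z - e₃ L) * (℘[L] (z - (L.ω₁ / 2 + L.ω₂ / 2)) - e₃ L)
      = (e₃ L - e₁ L) * (e₃ L - e₂ L) := by
  have hd : L.ω₁ / 2 - (L.ω₁ / 2 + L.ω₂ / 2) ∉ L.lattice := by
    intro h
    apply L.ω₂_div_two_notMem_lattice
    have := L.lattice.neg_mem h
    have e : -(L.ω₁ / 2 - (L.ω₁ / 2 + L.ω₂ / 2)) = L.ω₂ / 2 := by ring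
    rwa [e] at this
  have := halfPeriod_translate_eq L (half_add_half_notMem L) (two_mul_half₃ L)
    L.ω₁_div_two_notMem_lattice hd hz hzh
  have e : ℘[L] (L.ω₁ / 2 - (L.ω₁ / 2 + L.ω₂ / 2)) = e₂ L := by
    rw [e₂, ← L.weierstrassP_neg]
    congr 1
    ring
  rw [e] at this
  simp only [e₁, e₃] at this ⊢
  rw [this]; ring

/-! ### the core product computation -/

/-- one factor: `(℘(h + t) - e_j) (℘ t - e) = (e - e_j) (℘ t - e_m)` -/
theorem step_core (L : PeriodPair) {h e ej em : ℂ}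
    (hκ : ∀ z : ℂ, z ∉ L.lattice → z - h ∉ L.lattice →
      (℘[L] z - e) * (℘[L] (z - h) - e) = (e - ej) * (e - em))
    {t : ℂ} (ht : t ∉ L.lattice) (hht : h + t ∉ L.lattice) :
    (℘[L] (h + t) - ej) * (℘[L] t - e) = (e - ej) * (℘[L] t - em) := by
  have := hκ (h + t) hht (by simpa using ht)
  rw [add_sub_cancel_left] at this
  linear_combination this

/-- the product over the `p`-division points -/
theorem tail_prod (L : PeriodPair) (p : ℕ) {h e ej em : ℂ}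
    (hκ : ∀ z : ℂ, z ∉ L.lattice → z - h ∉ L.lattice →
      (℘[L] z - e) * (℘[L] (z - h) - e) = (e - ej) * (e - em))
    (hh : ∀ k : ℕ, k < p - 1 → h + ((k + 1 : ℕ) : ℂ) * (L.ω₁ / p) ∉ L.lattice) :
    normProdTail L p ej h * normProdTail L p e 0
      = (e - ej) ^ (p - 1) * normProdTail L p em 0 := by
  simp only [normProdTail]
  rw [← Finset.prod_mul_distrib]
  have : ∀ k ∈ Finset.range (p - 1),
      (℘[L] (h + ((k + 1 : ℕ) : ℂ) * (L.ω₁ / p)) - ej) *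
        (℘[L] (0 + ((k + 1 : ℕ) : ℂ) * (L.ω₁ / p)) - e)
      = (e - ej) * (℘[L] (0 + ((k + 1 : ℕ) : ℂ) * (L.ω₁ / p)) - em) := by
    intro k hk
    have hk' : k < p - 1 := Finset.mem_range.mp hk
    rw [zero_add]
    exact step_core L hκ (natMul_div_notMem L p (by omega) (by omega)) (hh k hk')
  rw [Finset.prod_congr rfl this, Finset.prod_mul_distrib, Finset.prod_const, Finset.card_range]

/-- the constants `c` are nonzero -/
theorem normProdTail_zero_ne_zero (L : PeriodPair) (p : ℕ) {h e ej em : ℂ}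
    (hκ : ∀ z : ℂ, z ∉ L.lattice → z - h ∉ L.lattice →
      (℘[L] z - e) * (℘[L] (z - h) - e) = (e - ej) * (e - em))
    (hej : e ≠ ej) (hem : e ≠ em)
    (hh : ∀ k : ℕ, k < p - 1 → h + ((k + 1 : ℕ) : ℂ) * (L.ω₁ / p) ∉ L.lattice) :
    normProdTail L p e 0 ≠ 0 := by
  simp only [normProdTail]
  rw [Finset.prod_ne_zero_iff]
  intro k hk
  have hk' : k < p - 1 := Finset.mem_range.mp hk
  rw [zero_add]
  set t := ((k + 1 : ℕ) : ℂ) * (L.ω₁ / p) with ht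
  have htL : t ∉ L.lattice := natMul_div_notMem L p (by omega) (by omega)
  have := hκ (h + t) (hh k hk') (by simpa using htL)
  rw [add_sub_cancel_left] at this
  intro h0
  rw [h0, mul_zero] at this
  exact mul_ne_zero (sub_ne_zero.mpr hej) (sub_ne_zero.mpr hem) this.symm

/-- **(I-B)**: `c_e · c_{e_j} · (℘_{L'} h - ℘_{L'} h_j) = (e - e_j)^p · c_{e_m}`. -/
theorem diff_formula (L : PeriodPair) (p : ℕ) (hp : p ≠ 0) {h hj e ej em : ℂ}
    (he : e = ℘[L] h) (hej : ej = ℘[L] hj)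
    (hκ : ∀ z : ℂ, z ∉ L.lattice → z - h ∉ L.lattice →
      (℘[L] z - e) * (℘[L] (z - h) - e) = (e - ej) * (e - em))
    (hh : ∀ k : ℕ, k < p - 1 → h + ((k + 1 : ℕ) : ℂ) * (L.ω₁ / p) ∉ L.lattice)
    (hhL' : h ∉ (divPair L p hp).lattice) (hjL' : hj ∉ (divPair L p hp).lattice) :
    normProdTail L p e 0 * normProdTail L p ej 0 *
        (℘[divPair L p hp] h - ℘[divPair L p hp] hj)
      = (e - ej) ^ p * normProdTail L p em 0 := by
  have h1 := normProd_eq L p hp hjL' hhL'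
  rw [← hej, normProd_eq_tail_mul L p ej hp, ← he] at h1
  have h2 := tail_prod L p hκ hh
  obtain ⟨n, rfl⟩ : ∃ n, p = n + 1 := ⟨p - 1, by omega⟩
  rw [Nat.add_sub_cancel] at h2
  rw [pow_succ]
  linear_combination (normProdTail L (n + 1) e 0) * (-h1) + (e - ej) * h2

/-! ### arithmetic of the division points -/

theorem den_half_add_div_ne_one {p : ℕ} (hp : Odd p) (j : ℕ) :
    ((1 / 2 : ℚ) + (j : ℚ) / p).den ≠ 1 := by
  intro hq
  have hp0 : p ≠ 0 := by rintro rfl; simp at hp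
  have hpq : (p : ℚ) ≠ 0 := by exact_mod_cast hp0
  obtain ⟨m, hm⟩ : ∃ m : ℤ, ((1 / 2 : ℚ) + (j : ℚ) / p) = m :=
    ⟨((1 / 2 : ℚ) + (j : ℚ) / p).num, by
      conv_lhs => rw [← Rat.num_div_den ((1 / 2 : ℚ) + (j : ℚ) / p), hq]
      simp⟩
  have hkm : (p : ℚ) + 2 * j = 2 * m * p := by
    field_simp at hm
    linear_combination hm
  have hkm' : (p : ℤ) + 2 * j = 2 * m * p := by exact_mod_cast hkm
  obtain ⟨r, hr⟩ := hp
  have h2 : (2 : ℤ) ∣ (p : ℤ) := ⟨m * p - j, by linarith⟩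
  omega

theorem den_half_mul_ne_one {p : ℕ} (hp : Odd p) : ((1 / 2 : ℚ) * (p : ℚ)).den ≠ 1 := by
  intro hq
  obtain ⟨m, hm⟩ : ∃ m : ℤ, ((1 / 2 : ℚ) * (p : ℚ)) = m :=
    ⟨((1 / 2 : ℚ) * (p : ℚ)).num, by
      conv_lhs => rw [← Rat.num_div_den ((1 / 2 : ℚ) * (p : ℚ)), hq]
      simp⟩
  have hkm : (p : ℚ) = 2 * m := by linear_combination 2 * hm
  have hkm' : (p : ℤ) = 2 * m := by exact_mod_cast hkm
  obtain ⟨r, hr⟩ := hp
  omega

theorem den_half_ne_one : ((1 / 2 : ℚ)).den ≠ 1 := by norm_num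

variable (L : PeriodPair) (p : ℕ)

theorem half₁_add_notMem (hp : Odd p) (j : ℕ) :
    L.ω₁ / 2 + (j : ℂ) * (L.ω₁ / p) ∉ L.lattice := by
  have hp0 : p ≠ 0 := by rintro rfl; simp at hp
  have hpc : (p : ℂ) ≠ 0 := by exact_mod_cast hp0
  have h := (L.mul_ω₁_add_mul_ω₂_mem_lattice (α := (1 / 2 : ℚ) + (j : ℚ) / p) (β := 0)).not.mpr
    (fun h1 => den_half_add_div_ne_one hp j h1.1)
  have e : L.ω₁ / 2 + (j : ℂ) * (L.ω₁ / p)
      = (((1 / 2 : ℚ) + (j : ℚ) / p : ℚ) : ℂ) * L.ω₁ + ((0 : ℚ) : ℂ) * L.ω₂ := by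
    push_cast
    field_simp
    ring
  rw [e]
  exact h

theorem half₂_add_notMem (hp0 : p ≠ 0) (j : ℕ) :
    L.ω₂ / 2 + (j : ℂ) * (L.ω₁ / p) ∉ L.lattice := by
  have hpc : (p : ℂ) ≠ 0 := by exact_mod_cast hp0
  have h := (L.mul_ω₁_add_mul_ω₂_mem_lattice (α := (j : ℚ) / p) (β := 1 / 2)).not.mpr
    (fun h1 => den_half_ne_one h1.2)
  have e : L.ω₂ / 2 + (j : ℂ) * (L.ω₁ / p)
      = (((j : ℚ) / p : ℚ) : ℂ) * L.ω₁ + ((1 / 2 : ℚ) : ℂ) * L.ω₂ := by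
    push_cast
    field_simp
    ring
  rw [e]
  exact h

theorem half₃_add_notMem (hp0 : p ≠ 0) (j : ℕ) :
    (L.ω₁ / 2 + L.ω₂ / 2) + (j : ℂ) * (L.ω₁ / p) ∉ L.lattice := by
  have hpc : (p : ℂ) ≠ 0 := by exact_mod_cast hp0
  have h := (L.mul_ω₁_add_mul_ω₂_mem_lattice (α := (1 / 2 : ℚ) + (j : ℚ) / p)
    (β := 1 / 2)).not.mpr (fun h1 => den_half_ne_one h1.2)
  have e : (L.ω₁ / 2 + L.ω₂ / 2) + (j : ℂ) * (L.ω₁ / p)
      = (((1 / 2 : ℚ) + (j : ℚ) / p : ℚ) : ℂ) * L.ω₁ + ((1 / 2 : ℚ) : ℂ) * L.ω₂ := by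
    push_cast
    field_simp
    ring
  rw [e]
  exact h

theorem half₁_notMem_divPair (hp : Odd p) (hp0 : p ≠ 0) :
    L.ω₁ / 2 ∉ (divPair L p hp0).lattice := by
  have h := (rat_mem_divPair_iff L p hp0 (α := 1 / 2) (β := 0)).not.mpr
    (fun h1 => den_half_mul_ne_one hp h1.1)
  have e : L.ω₁ / 2 = (((1 / 2 : ℚ) : ℚ) : ℂ) * L.ω₁ + ((0 : ℚ) : ℂ) * L.ω₂ := by
    push_cast
    ring
  rw [e]
  exact h

theorem half₂_notMem_divPair (hp0 : p ≠ 0) :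
    L.ω₂ / 2 ∉ (divPair L p hp0).lattice := by
  have h := (rat_mem_divPair_iff L p hp0 (α := 0) (β := 1 / 2)).not.mpr
    (fun h1 => den_half_ne_one h1.2)
  have e : L.ω₂ / 2 = (((0 : ℚ) : ℚ) : ℂ) * L.ω₁ + ((1 / 2 : ℚ) : ℂ) * L.ω₂ := by
    push_cast
    ring
  rw [e]
  exact h

theorem half₃_notMem_divPair (hp0 : p ≠ 0) :
    L.ω₁ / 2 + L.ω₂ / 2 ∉ (divPair L p hp0).lattice := by
  have h := (rat_mem_divPair_iff L p hp0 (α := 1 / 2) (β := 1 / 2)).not.mpr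
    (fun h1 => den_half_ne_one h1.2)
  have e : L.ω₁ / 2 + L.ω₂ / 2 = (((1 / 2 : ℚ) : ℚ) : ℂ) * L.ω₁ + ((1 / 2 : ℚ) : ℂ) * L.ω₂ := by
    push_cast
    ring
  rw [e]
  exact h

/-- the half-period values of `L'` are the values of `℘_{L'}` at the half-periods of `L` -/
theorem e₁_divPair (hp : Odd p) (hp0 : p ≠ 0) :
    e₁ (divPair L p hp0) = ℘[divPair L p hp0] (L.ω₁ / 2) := by
  have hpc : (p : ℂ) ≠ 0 := by exact_mod_cast hp0
  obtain ⟨r, hr⟩ := hp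
  have hmem := natMul_div_mem_divPair L p hp0 r
  rw [e₁, divPair_ω₁, ← (divPair L p hp0).weierstrassP_add_coe _ ⟨_, hmem⟩]
  congr 1
  have : (p : ℂ) = 2 * r + 1 := by rw [hr]; push_cast; ring
  field_simp
  rw [this]
  ring

theorem e₂_divPair (hp0 : p ≠ 0) :
    e₂ (divPair L p hp0) = ℘[divPair L p hp0] (L.ω₂ / 2) := rfl

theorem e₃_divPair (hp : Odd p) (hp0 : p ≠ 0) :
    e₃ (divPair L p hp0) = ℘[divPair L p hp0] (L.ω₁ / 2 + L.ω₂ / 2) := by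
  have hpc : (p : ℂ) ≠ 0 := by exact_mod_cast hp0
  obtain ⟨r, hr⟩ := hp
  have hmem := natMul_div_mem_divPair L p hp0 r
  rw [e₃, divPair_ω₁, divPair_ω₂, ← (divPair L p hp0).weierstrassP_add_coe _ ⟨_, hmem⟩]
  congr 1
  have : (p : ℂ) = 2 * r + 1 := by rw [hr]; push_cast; ring
  field_simp
  rw [this]
  ring

end Fermat.Agent.S15.H662

end
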