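import Mathlib
import Fermat.Agent.S15.H662.Isogeny

/-!
# Row S15, piece I1 (helper662): `Δ(L') · (∏ ℘'_L(k ω₁/p))⁴ = Δ(L)^p`

`latDisc_divPair`: for `p` odd and `L' = L + ℤ ω₁/p` (`divPair L p`),

  `latDisc L' * (∏ k ∈ range (p - 1), ℘'[L] ((k + 1) * (ω₁ / p))) ^ 4 = latDisc L ^ p`

where `latDisc L = g₂³ - 27 g₃²`.  Also in the form with `Finset.Ico 1 p`.

Mathlib-only.
-/

set_option autoImplicit false

open Filter Topology
open scoped PeriodPair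

noncomputable section

namespace Fermat.Agent.S15.H662

/-- the product of the values of `℘'` at the nonzero multiples of `ω₁ / p` -/
def derivProd (L : PeriodPair) (p : ℕ) : ℂ :=
  ∏ k ∈ Finset.range (p - 1), ℘'[L] (((k + 1 : ℕ) : ℂ) * (L.ω₁ / p))

theorem derivProd_sq (L : PeriodPair) (p : ℕ) :
    derivProd L p ^ 2 = 4 ^ (p - 1) *
      (normProdTail L p (e₁ L) 0 * normProdTail L p (e₂ L) 0 * normProdTail L p (e₃ L) 0) := by
  simp only [derivProd, normProdTail]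
  rw [← Finset.prod_pow, ← Finset.prod_mul_distrib, ← Finset.prod_mul_distrib]
  have h4 : (4 : ℂ) ^ (p - 1) = ∏ _k ∈ Finset.range (p - 1), (4 : ℂ) := by
    rw [Finset.prod_const, Finset.card_range]
  rw [h4, ← Finset.prod_mul_distrib]
  refine Finset.prod_congr rfl fun k hk => ?_
  have hk' : k < p - 1 := Finset.mem_range.mp hk
  rw [zero_add, derivWeierstrassP_sq_factor L (natMul_div_notMem L p (by omega) (by omega))]
  ring

/-- the final algebraic step -/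
theorem final_alg (P P' c D : ℂ) (n : ℕ) (key : c * P' = P ^ (n + 1))
    (h4 : D = 16 ^ n * c ^ 2) : 16 * P' ^ 2 * D = (16 * P ^ 2) ^ (n + 1) := by
  rw [h4]
  have h5 : 16 * P' ^ 2 * (16 ^ n * c ^ 2) = 16 ^ (n + 1) * (c * P') ^ 2 := by ring1
  rw [h5, key]
  ring1

/-- **The discriminant of the quotient lattice.** -/
theorem latDisc_divPair (L : PeriodPair) (p : ℕ) (hp : Odd p) (hp0 : p ≠ 0) :
    latDisc (divPair L p hp0) * derivProd L p ^ 4 = latDisc L ^ p := by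
  set L' := divPair L p hp0 with hL'
  set c₁ := normProdTail L p (e₁ L) 0 with hc₁
  set c₂ := normProdTail L p (e₂ L) 0 with hc₂
  set c₃ := normProdTail L p (e₃ L) 0 with hc₃
  have h12 := e₁_ne_e₂ L
  have h31 := e₃_ne_e₁ L
  have h32 := e₃_ne_e₂ L
  -- the three translation formulas in the shape needed
  have κ₁ : ∀ z : ℂ, z ∉ L.lattice → z - L.ω₁ / 2 ∉ L.lattice →
      (℘[L] z - e₁ L) * (℘[L] (z - L.ω₁ / 2) - e₁ L) = (e₁ L - e₂ L) * (e₁ L - e₃ L) :=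
    fun z hz hzh => translate₁ L hz hzh
  have κ₁' : ∀ z : ℂ, z ∉ L.lattice → z - L.ω₁ / 2 ∉ L.lattice →
      (℘[L] z - e₁ L) * (℘[L] (z - L.ω₁ / 2) - e₁ L) = (e₁ L - e₃ L) * (e₁ L - e₂ L) :=
    fun z hz hzh => (translate₁ L hz hzh).trans (mul_comm _ _)
  have κ₂ : ∀ z : ℂ, z ∉ L.lattice → z - L.ω₂ / 2 ∉ L.lattice →
      (℘[L] z - e₂ L) * (℘[L] (z - L.ω₂ / 2) - e₂ L) = (e₂ L - e₃ L) * (e₂ L - e₁ L) :=
    fun z hz hzh => (translate₂ L hz hzh).trans (mul_comm _ _)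
  have κ₃ : ∀ z : ℂ, z ∉ L.lattice → z - (L.ω₁ / 2 + L.ω₂ / 2) ∉ L.lattice →
      (℘[L] z - e₃ L) * (℘[L] (z - (L.ω₁ / 2 + L.ω₂ / 2)) - e₃ L)
        = (e₃ L - e₁ L) * (e₃ L - e₂ L) :=
    fun z hz hzh => translate₃ L hz hzh
  have m₁ : ∀ k : ℕ, k < p - 1 → L.ω₁ / 2 + ((k + 1 : ℕ) : ℂ) * (L.ω₁ / p) ∉ L.lattice :=
    fun k _ => half₁_add_notMem L p hp (k + 1)
  have m₂ : ∀ k : ℕ, k < p - 1 → L.ω₂ / 2 + ((k + 1 : ℕ) : ℂ) * (L.ω₁ / p) ∉ L.lattice :=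
    fun k _ => half₂_add_notMem L p hp0 (k + 1)
  have m₃ : ∀ k : ℕ, k < p - 1 →
      (L.ω₁ / 2 + L.ω₂ / 2) + ((k + 1 : ℕ) : ℂ) * (L.ω₁ / p) ∉ L.lattice :=
    fun k _ => half₃_add_notMem L p hp0 (k + 1)
  have n₁ := half₁_notMem_divPair L p hp hp0
  have n₂ := half₂_notMem_divPair L p hp0
  have n₃ := half₃_notMem_divPair L p hp0
  -- (I-B) for the three pairs
  have d12 := diff_formula L p hp0 (h := L.ω₁ / 2) (hj := L.ω₂ / 2) (e := e₁ L) (ej := e₂ L)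
    (em := e₃ L) rfl rfl κ₁ m₁ n₁ n₂
  have d13 := diff_formula L p hp0 (h := L.ω₁ / 2) (hj := L.ω₁ / 2 + L.ω₂ / 2) (e := e₁ L)
    (ej := e₃ L) (em := e₂ L) rfl rfl κ₁' m₁ n₁ n₃
  have d23 := diff_formula L p hp0 (h := L.ω₂ / 2) (hj := L.ω₁ / 2 + L.ω₂ / 2) (e := e₂ L)
    (ej := e₃ L) (em := e₁ L) rfl rfl κ₂ m₂ n₂ n₃
  rw [← e₁_divPair L p hp hp0, ← e₂_divPair L p hp0] at d12
  rw [← e₁_divPair L p hp hp0, ← e₃_divPair L p hp hp0] at d13
  rw [← e₂_divPair L p hp0, ← e₃_divPair L p hp hp0] at d23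
  -- nonvanishing of the constants
  have hc₁0 : c₁ ≠ 0 := normProdTail_zero_ne_zero L p κ₁ h12 h31.symm m₁
  have hc₂0 : c₂ ≠ 0 := normProdTail_zero_ne_zero L p κ₂ h32.symm h12.symm m₂
  have hc₃0 : c₃ ≠ 0 := normProdTail_zero_ne_zero L p κ₃ h31 h32 m₃
  have hsq := derivProd_sq L p
  rw [← hc₁, ← hc₂, ← hc₃] at hsq
  -- put everything together
  set P := (e₁ L - e₂ L) * (e₁ L - e₃ L) * (e₂ L - e₃ L) with hP
  set P' := (e₁ L' - e₂ L') * (e₁ L' - e₃ L') * (e₂ L' - e₃ L') with hP'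
  set c := c₁ * c₂ * c₃ with hc
  have hc0 : c ≠ 0 := mul_ne_zero (mul_ne_zero hc₁0 hc₂0) hc₃0
  have key : c * P' = P ^ p := by
    apply mul_left_cancel₀ hc0
    have : c * (c * P') = (c₁ * c₂ * (e₁ L' - e₂ L')) * (c₁ * c₃ * (e₁ L' - e₃ L')) *
        (c₂ * c₃ * (e₂ L' - e₃ L')) := by
      simp only [hc, hP']; ring
    rw [this, d12, d13, d23]
    simp only [hc, hP, mul_pow]
    ring
  rw [latDisc_eq_e L', latDisc_eq_e L, ← hP, ← hP']
  obtain ⟨n, rfl⟩ : ∃ n, p = n + 1 := ⟨p - 1, by omega⟩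
  rw [Nat.add_sub_cancel] at hsq
  have h4 : derivProd L (n + 1) ^ 4 = 16 ^ n * c ^ 2 := by
    have : derivProd L (n + 1) ^ 4 = (derivProd L (n + 1) ^ 2) ^ 2 := by ring
    rw [this, hsq, mul_pow, ← pow_mul]
    congr 1
    rw [show (16 : ℂ) = 4 ^ 2 by norm_num, ← pow_mul, mul_comm]
  exact final_alg P P' c _ n key h4

/-- the same product indexed by `Finset.Ico 1 p` -/
theorem derivProd_eq_prod_Ico (L : PeriodPair) (p : ℕ) :
    derivProd L p = ∏ k ∈ Finset.Ico 1 p, ℘'[L] ((k : ℂ) * (L.ω₁ / p)) := by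
  rcases Nat.eq_zero_or_pos p with rfl | hp
  · simp [derivProd]
  rw [derivProd, Finset.prod_Ico_eq_prod_range]
  refine Finset.prod_congr rfl fun k _ => ?_
  congr 2
  push_cast
  ring

end Fermat.Agent.S15.H662

end
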