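import Mathlib
import Fermat.Agent.S15.H962.NewtonVal

/-!
# Row S15, piece MOD-A2 (helper662): simple roots from the shape of the modular polynomial

`derivative_ne_zero_of_isModularShape`: let `Φ ∈ ℤ[X][Y]` have modular shape of level `N`
(`H962.IsModularShape`), let `v` be a valuation with `v (N + 1) < 1` and `v N = 1` (e.g. `N` odd and
`v` over `2`), and let `a, b` satisfy `1 < v a`, `v b = (v a) ^ N`.  Then `∂Φ/∂Y (a, b) ≠ 0`.
(The term `N c_N(a) b^(N-1)` strictly dominates.)

Mathlib + `H962.NewtonVal` only.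
-/

set_option autoImplicit false

open Polynomial

namespace Fermat.Agent.S15.H662

open Fermat.Agent.S15.H962

variable {K : Type*} [Field K] {Γ₀ : Type*} [LinearOrderedCommGroupWithZero Γ₀]
  (v : Valuation K Γ₀)

/-- evaluation of a two-variable integer polynomial as a sum over any range beyond the degree -/
theorem eval2_eq_sum_range' (Ψ : ℤ[X][X]) (a b : K) {n : ℕ} (hn : Ψ.natDegree < n) :
    eval2 Ψ a b = ∑ k ∈ Finset.range n, (Ψ.coeff k).eval₂ (Int.castRingHom K) a * b ^ k := by
  unfold eval2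
  rw [Polynomial.eval₂_eq_sum_range' _ hn]
  rfl

/-- **Simple root.** -/
theorem derivative_ne_zero_of_isModularShape {N : ℕ} (hN : 0 < N) {Φ : ℤ[X][X]}
    (hΦ : IsModularShape N Φ) {a b : K} (ha : 1 < v a) (hb : v b = v a ^ N)
    (hN1 : v ((N + 1 : ℕ) : K) < 1) (hN0 : v ((N : ℕ) : K) = 1) :
    eval2 (derivative Φ) a b ≠ 0 := by
  classical
  set A := v a with hA
  set B := v b with hB
  have hA0 : 0 < A := lt_trans zero_lt_one ha
  have hB1 : 1 < B := by rw [hb]; exact one_lt_pow₀ ha hN.ne'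
  have hB0 : 0 < B := lt_trans zero_lt_one hB1
  have hb0 : b ≠ 0 := (Valuation.ne_zero_iff v).mp hB0.ne'
  have hdeg : (derivative Φ).natDegree < N + 1 := by
    have := Polynomial.natDegree_derivative_le Φ
    rw [hΦ.natDegree_eq] at this
    omega
  rw [eval2_eq_sum_range' (derivative Φ) a b hdeg]
  -- the terms
  set f : ℕ → K := fun k => ((derivative Φ).coeff k).eval₂ (Int.castRingHom K) a * b ^ k with hf
  have hterm : ∀ k, f k = (Φ.coeff (k + 1)).eval₂ (Int.castRingHom K) a * ((k + 1 : ℕ) : K) * b ^ k := by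
    intro k
    simp only [hf, Polynomial.coeff_derivative]
    rw [Polynomial.eval₂_mul]
    congr 2
    have : ((k : ℤ[X]) + 1) = ((k + 1 : ℕ) : ℤ[X]) := by push_cast; ring
    rw [this, Polynomial.eval₂_natCast]
  -- valuations of the terms
  have hvtop : v (f N) < B ^ N := by
    rw [hterm N]
    have hc : Φ.coeff (N + 1) = 1 := by
      have := hΦ.monic
      rw [Polynomial.Monic, Polynomial.leadingCoeff, hΦ.natDegree_eq] at this
      exact this
    rw [hc, Polynomial.eval₂_one, one_mul, map_mul, map_pow]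
    calc v ((N + 1 : ℕ) : K) * B ^ N < 1 * B ^ N := by
          exact mul_lt_mul_of_pos_right hN1 (pow_pos hB0 N)
      _ = B ^ N := one_mul _
  obtain ⟨M, rfl⟩ : ∃ M, N = M + 1 := ⟨N - 1, by omega⟩
  have hvdom : v (f M) = B ^ (M + 1) := by
    rw [hterm M, map_mul, map_mul, map_pow, hN0, mul_one,
      val_eval_eq v ha (Φ.coeff (M + 1)) hΦ.coeff_top_natDegree hΦ.coeff_top_unit]
    rw [← hb, pow_succ]
    exact mul_comm _ _
  have hfM : f M ≠ 0 := by
    rw [← Valuation.ne_zero_iff v, hvdom]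
    exact (pow_pos hB0 _).ne'
  have hvlow : ∀ k, k < M → v (f k) < B ^ (M + 1) := by
    intro k hk
    rw [hterm k, map_mul, map_mul, map_pow]
    have h1 : v ((Φ.coeff (k + 1)).eval₂ (Int.castRingHom K) a) ≤ A ^ (M + 1) :=
      val_eval_le v ha.le _ (hΦ.coeff_mid (k + 1) (by omega) (by omega))
    have h2 : v ((k + 1 : ℕ) : K) ≤ 1 := val_natCast_le_one v _
    have h3 : B ^ k < B ^ M := pow_lt_pow_right₀ hB1 hk
    calc v ((Φ.coeff (k + 1)).eval₂ (Int.castRingHom K) a) * v ((k + 1 : ℕ) : K) * B ^ k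
        ≤ A ^ (M + 1) * 1 * B ^ k := by gcongr
      _ = B * B ^ k := by rw [mul_one, hb]
      _ < B * B ^ M := mul_lt_mul_of_pos_left h3 hB0
      _ = B ^ (M + 1) := by rw [pow_succ]; exact mul_comm _ _
  refine sum_ne_zero_of_dominant v (Finset.range (M + 1 + 1)) f M
    (Finset.mem_range.mpr (by omega)) hfM fun i hi hne => ?_
  rw [hvdom]
  have hi' : i < M + 1 + 1 := Finset.mem_range.mp hi
  rcases Nat.lt_or_ge i M with h | h
  · exact hvlow i h
  · have : i = M + 1 := by omega
    subst this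
    exact hvtop

end Fermat.Agent.S15.H662
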