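import Fermat.Agent.S37
import Fermat.Agent.S29.M1
import Fermat.Agent.S29.H571.HeckeGalois

/-!
# Row S15, DESC leaf G3 (helper662): division points of `J₀(N)` are unramified away from `N r`

Blueprint `coord/S15-DESC-blueprint.md`, sec. 3.  Formal consequences of the landed S37
(`Fermat.Agent.S37.result`: good-reduction specialisation of `J₀(N)` at `ℓ ∤ N r`, invariant under
inertia and injective on `r`-power torsion).

* `inertia_smul_eq_of_pow_smul_fixed` : `ℓ ∤ N r`, `A ∣ ℓ`, `σ ∈ I_A`, `σ (r^k y) = r^k y` ⟹ `σ y = y`;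
* `inertia_smul_eq_of_pow_smul_eq_zero` : inertia at `A` acts trivially on `J₀(N)[r^∞]`;
* `inertia_smul_eq_of_smul_fixed` : the case `k = 1` (Kummer cocycles `c_y(σ) = σ y - y`, `r y ∈ J(ℚ)`,
  vanish on inertia at `ℓ ∤ N r`);
* `kummer_cocycle_inertia_eq_zero` : the same for a Galois-fixed `r ^ k • y`.

`r` is an arbitrary natural number (not necessarily prime).
-/

set_option autoImplicit false

namespace Fermat.Agent.S15.H662

open ModularCurve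

variable (N r : ℕ) [NeZero N]

/-- **G3.**  Let `ℓ ∤ N r` be a prime, `A` a place of `ℚ̄` above `ℓ`, `σ` in the inertia group at
`A`.  If `σ` fixes `r ^ k • y`, then `σ` fixes `y`. -/
theorem inertia_smul_eq_of_pow_smul_fixed {ℓ : ℕ} (hℓ : ℓ.Prime) (hℓN : ¬ ℓ ∣ N * r)
    (A : ValuationSubring (AlgebraicClosure ℚ)) (hA : A.LiesOverPrime ℓ)
    (σ : AlgebraicClosure ℚ ≃ₐ[ℚ] AlgebraicClosure ℚ) (hσ : σ ∈ A.inertiaSubgroupIn ℚ)
    (y : JZero N) (k : ℕ) (hy : σ • (r ^ k • y) = r ^ k • y) : σ • y = y := by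
  have h2 : r ^ k • (σ • y - y) = 0 := by
    have h3 : σ • (r ^ k • y) = r ^ k • (σ • y) :=
      map_nsmul (DistribSMul.toAddMonoidHom (JZero N) σ) (r ^ k) y
    rw [nsmul_sub, ← h3, hy, sub_self]
  let _ := heckeModuleBar N
  obtain ⟨J', _, _, sp, F, hsp, -⟩ :=
    Fermat.Agent.S37.result N r (Fermat.Agent.S29.heckeOperatorsCommuteBar N)
      (Fermat.Agent.S29.H571.smulCommClass_heckeModuleBar N) ℓ hℓ hℓN A hA
  have h1 : sp (σ • y - y) = 0 := by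
    rw [map_sub, hsp.inertia_comm σ hσ y, sub_self]
  exact sub_eq_zero.mp (hsp.injective_torsion _ ⟨k, h2⟩ h1)

/-- Inertia at `A ∣ ℓ`, `ℓ ∤ N r`, acts trivially on `J₀(N)[r^∞]`. -/
theorem inertia_smul_eq_of_pow_smul_eq_zero {ℓ : ℕ} (hℓ : ℓ.Prime) (hℓN : ¬ ℓ ∣ N * r)
    (A : ValuationSubring (AlgebraicClosure ℚ)) (hA : A.LiesOverPrime ℓ)
    (σ : AlgebraicClosure ℚ ≃ₐ[ℚ] AlgebraicClosure ℚ) (hσ : σ ∈ A.inertiaSubgroupIn ℚ)
    (t : JZero N) (k : ℕ) (ht : r ^ k • t = 0) : σ • t = t :=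
  inertia_smul_eq_of_pow_smul_fixed N r hℓ hℓN A hA σ hσ t k
    (by rw [ht]; exact smul_zero (A := JZero N) σ)

/-- The case `k = 1`. -/
theorem inertia_smul_eq_of_smul_fixed {ℓ : ℕ} (hℓ : ℓ.Prime) (hℓN : ¬ ℓ ∣ N * r)
    (A : ValuationSubring (AlgebraicClosure ℚ)) (hA : A.LiesOverPrime ℓ)
    (σ : AlgebraicClosure ℚ ≃ₐ[ℚ] AlgebraicClosure ℚ) (hσ : σ ∈ A.inertiaSubgroupIn ℚ)
    (y : JZero N) (hy : σ • (r • y) = r • y) : σ • y = y :=
  inertia_smul_eq_of_pow_smul_fixed N r hℓ hℓN A hA σ hσ y 1 (by rwa [pow_one])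

/-- **G3, cocycle form.**  If `r ^ k • y` is Galois-fixed (`r^k y ∈ J₀(N)(ℚ)`), the Kummer cocycle
`σ ↦ σ y - y` vanishes on the inertia groups at all places `A ∣ ℓ`, `ℓ ∤ N r`. -/
theorem kummer_cocycle_inertia_eq_zero {ℓ : ℕ} (hℓ : ℓ.Prime) (hℓN : ¬ ℓ ∣ N * r)
    (A : ValuationSubring (AlgebraicClosure ℚ)) (hA : A.LiesOverPrime ℓ)
    (y : JZero N) (k : ℕ)
    (hy : ∀ τ : AlgebraicClosure ℚ ≃ₐ[ℚ] AlgebraicClosure ℚ, τ • (r ^ k • y) = r ^ k • y)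
    (σ : AlgebraicClosure ℚ ≃ₐ[ℚ] AlgebraicClosure ℚ) (hσ : σ ∈ A.inertiaSubgroupIn ℚ) :
    σ • y - y = 0 :=
  sub_eq_zero.mpr (inertia_smul_eq_of_pow_smul_fixed N r hℓ hℓN A hA σ hσ y k (hy σ))

end Fermat.Agent.S15.H662
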