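import Mathlib
import Fermat.Agent.S15.H662.Disc
import Fermat.Agent.S20.T2_helper423

/-!
# Row S15, piece I1 (helper662): the value of the modular unit `Δ(τ)/Δ(pτ)`

`discriminant_div_discriminant` (**I1**): for `τ ∈ ℍ`, `p` odd, `τ' = p τ`, `L = ℤ + ℤ τ`:

  `Δ(τ) / Δ(p τ) = p ^ 12 * (∏_{0 < k < p} ℘'_L (k / p)) ^ 4 / (g₂(L)³ - 27 g₃(L)²) ^ (p - 1)`

where `Δ` is Mathlib's `ModularForm.discriminant` (the `η`-product, `discriminant_eq_q_prod`).
No `q`-products and no modular functions on `Γ₀(p)` are used: Jacobi's identity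
(Mathlib `discriminant_eq_E₄_cube_sub_E₆_sq`, via S20 `g₂_cube_sub_g₃_sq_pairOf`) and the lattice
identity `latDisc_divPair`.

Imports: Mathlib, `Fermat.Agent.S20.T2_helper423` (Mathlib-only, on main).
-/

set_option autoImplicit false

open UpperHalfPlane ModularForm
open scoped PeriodPair

noncomputable section

namespace Fermat.Agent.S15.H662

open Fermat.Agent.S20.T2h423 (pairOf scalePair g₂_scalePair g₃_scalePair
  g₂_cube_sub_g₃_sq_pairOf)

/-- two period pairs with the same periods are equal -/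
theorem periodPair_ext {L₁ L₂ : PeriodPair} (h₁ : L₁.ω₁ = L₂.ω₁) (h₂ : L₁.ω₂ = L₂.ω₂) :
    L₁ = L₂ := by
  cases L₁; cases L₂
  simp only [PeriodPair.mk.injEq]
  exact ⟨h₁, h₂⟩

/-- `Δ_lat(cL) = c⁻¹² Δ_lat(L)` -/
theorem latDisc_scalePair (c : ℂ) (hc : c ≠ 0) (L : PeriodPair) :
    latDisc (scalePair c hc L) = (c ^ 12)⁻¹ * latDisc L := by
  rw [latDisc, latDisc, g₂_scalePair, g₃_scalePair]
  field_simp

/-- Jacobi: `Δ_lat(ℤ + ℤτ) = (2π)¹² Δ(τ)` -/
theorem latDisc_pairOf (τ : ℍ) :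
    latDisc (pairOf τ) = (2 * (Real.pi : ℂ)) ^ 12 * discriminant τ :=
  g₂_cube_sub_g₃_sq_pairOf τ

/-- **I1, lattice form.** -/
theorem discriminant_div_discriminant' (τ τ' : ℍ) (p : ℕ) (hp : Odd p)
    (hτ : (τ' : ℂ) = (p : ℂ) * (τ : ℂ)) :
    discriminant τ / discriminant τ' =
      (p : ℂ) ^ 12 * derivProd (pairOf τ) p ^ 4 / latDisc (pairOf τ) ^ (p - 1) := by
  have hp0 : p ≠ 0 := by rintro rfl; simp at hp
  have hpc : (p : ℂ) ≠ 0 := by exact_mod_cast hp0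
  set L := pairOf τ with hL
  set L' := divPair L p hp0 with hL'
  have hscale : scalePair (p : ℂ) hpc L' = pairOf τ' := by
    apply periodPair_ext
    · simp only [Fermat.Agent.S20.T2h423.scalePair_ω₁, hL', divPair_ω₁, hL,
        Fermat.Agent.S20.T2h423.pairOf_ω₁]
      field_simp
    · simp only [Fermat.Agent.S20.T2h423.scalePair_ω₂, hL', divPair_ω₂, hL,
        Fermat.Agent.S20.T2h423.pairOf_ω₂, hτ]
  have h1 : latDisc (pairOf τ') = ((p : ℂ) ^ 12)⁻¹ * latDisc L' := by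
    rw [← hscale, latDisc_scalePair]
  have h2 := latDisc_divPair L p hp hp0
  rw [← hL'] at h2
  have h3 := latDisc_pairOf τ
  have h4 := latDisc_pairOf τ'
  rw [← hL] at h3
  have hπ : (2 * (Real.pi : ℂ)) ^ 12 ≠ 0 :=
    pow_ne_zero _ (mul_ne_zero two_ne_zero (by exact_mod_cast Real.pi_ne_zero))
  have hΔ' : discriminant τ' ≠ 0 := discriminant_ne_zero τ'
  have hΔ : discriminant τ ≠ 0 := discriminant_ne_zero τ
  have hLne : latDisc L ≠ 0 := latDisc_ne_zero L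
  have hL'ne : latDisc L' ≠ 0 := latDisc_ne_zero L'
  have hpow : latDisc L ^ (p - 1) ≠ 0 := pow_ne_zero _ hLne
  have hp12 : (p : ℂ) ^ 12 ≠ 0 := pow_ne_zero _ hpc
  obtain ⟨n, rfl⟩ : ∃ n, p = n + 1 := ⟨p - 1, by omega⟩
  rw [Nat.add_sub_cancel] at hpow ⊢
  rw [div_eq_div_iff hΔ' hpow]
  -- `Δ τ = latDisc L / (2π)^12`, `Δ τ' = latDisc L' / (p^12 (2π)^12)`
  have e1 : discriminant τ = latDisc L / (2 * (Real.pi : ℂ)) ^ 12 := by
    rw [h3]; field_simp
  have e2 : discriminant τ' = latDisc L' / (((n + 1 : ℕ) : ℂ) ^ 12 * (2 * (Real.pi : ℂ)) ^ 12) := by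
    rw [eq_div_iff (mul_ne_zero hp12 hπ)]
    have : latDisc L' = ((n + 1 : ℕ) : ℂ) ^ 12 * latDisc (pairOf τ') := by
      rw [h1]; field_simp
    rw [this, h4]; ring
  rw [e1, e2]
  field_simp
  -- goal is an identity in `latDisc L`, `latDisc L'`, `derivProd`
  rw [pow_succ] at h2
  linear_combination (-(1 : ℂ)) * h2

/-- **I1.** The value of the modular unit `Δ(τ)/Δ(pτ)` in terms of the `p`-division values of
`℘'` of the lattice `ℤ + ℤτ`. -/
theorem discriminant_div_discriminant (τ τ' : ℍ) (p : ℕ) (hp : Odd p)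
    (hτ : (τ' : ℂ) = (p : ℂ) * (τ : ℂ)) :
    discriminant τ / discriminant τ' =
      (p : ℂ) ^ 12 * (∏ k ∈ Finset.Ico 1 p, ℘'[pairOf τ] ((k : ℂ) / p)) ^ 4 /
        ((pairOf τ).g₂ ^ 3 - 27 * (pairOf τ).g₃ ^ 2) ^ (p - 1) := by
  rw [discriminant_div_discriminant' τ τ' p hp hτ, derivProd_eq_prod_Ico]
  unfold latDisc
  have hprod : (∏ k ∈ Finset.Ico 1 p, ℘'[pairOf τ] ((k : ℂ) * ((pairOf τ).ω₁ / p)))
      = ∏ k ∈ Finset.Ico 1 p, ℘'[pairOf τ] ((k : ℂ) / p) := by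
    refine Finset.prod_congr rfl fun k _ => ?_
    rw [Fermat.Agent.S20.T2h423.pairOf_ω₁]
    congr 1
    ring
  rw [hprod]

end Fermat.Agent.S15.H662

end
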