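import Mathlib
import Fermat.Agent.S15.H662.DerivShape
import Fermat.Agent.S15.H386.ModShapeExists
import Fermat.Agent.S15.H602.ModA1
import Fermat.Agent.Lib.X0Deg.Gen

/-!
# Row S15, piece MOD-A2 (helper662): uniqueness of the place above a `2`-adically non-integral `j`

`placeUniqueStatement : H542.PlaceUniqueStatement` — for an odd prime `p`, a rational number `r`
with `v₂(r) < 0` and `a' ∈ ℚ̄`, there is at most one place `P` of `ℚ̄(X₀(p))` with `j(P) = r` and
`j_p(P) = a'`.

Route (no discriminant of `Φ_p` needed): let `Φ = Φ_p ∈ ℤ[X][Y]` be the modular polynomial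
(`H386.exists_isModularShape`).  A place with these values is centred at the point `(r, a')` of the
plane model `Φ(j, j_p) = 0`, so `Φ(r, a') = 0 = Φ(a', r)`.  Fix a valuation `v` of `ℚ̄` above `2`;
then `v(r) > 1` and the Newton polygon (`H962.val_root_of_isModularShape`) gives
`v(a') = v(r)^p` or `v(a')^p = v(r)`.  In the first case `∂Φ/∂Y (r, a') ≠ 0`, in the second case
`∂Φ/∂Y (a', r) ≠ 0` (`derivative_ne_zero_of_isModularShape`: the term `p c_p(a) b^(p-1)` strictly
dominates, because `v(p) = 1` and `v(p + 1) < 1`).  So `(r, a')` is a simple point of the plane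
model in one of the two coordinate orders, and the place is unique (`H602.IsCentredAt.unique`),
because `ℚ̄(X₀(p)) = ℚ̄(j, j_p)` (`Lib.X0Deg.adjoin_jF_jMF_eq_top`).
-/

set_option autoImplicit false

noncomputable section

open Polynomial AlgebraicCurve ModularCurve

namespace Fermat.Agent.S15.H662

open Fermat.Agent.S15.H542 Fermat.Agent.S15.H602 Fermat.Agent.S15.H962

/-! ## Base change of integer polynomials in two variables -/

section Bridge

variable (K : Type*) [Field K]

/-- Base change `ℤ[X][Y] → K[X][Y]`. -/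
def bcInt : ℤ[X][X] →+* K[X][X] :=
  Polynomial.mapRingHom (Polynomial.mapRingHom (Int.castRingHom K))

variable {K}
variable {F : Type*} [Field F] [Algebra K F]

theorem ev0_bcInt (Φ : ℤ[X][X]) (a b : K) : ev0 a b (bcInt K Φ) = eval2 Φ a b := by
  unfold ev0 bcInt eval2
  rw [coe_eval₂RingHom, coe_mapRingHom, eval₂_map]
  congr 1
  refine Polynomial.ringHom_ext (fun z => ?_) ?_
  · simp
  · simp

theorem ev_bcInt (Φ : ℤ[X][X]) (x y : F) : ev (K := K) x y (bcInt K Φ) = eval2 Φ x y := by
  unfold ev bcInt eval2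
  rw [coe_eval₂RingHom, coe_mapRingHom, eval₂_map]
  congr 1
  refine Polynomial.ringHom_ext (fun z => ?_) ?_
  · simp
  · simp

theorem derivative_bcInt (Φ : ℤ[X][X]) :
    derivative (bcInt K Φ) = bcInt K (derivative Φ) := by
  unfold bcInt
  rw [coe_mapRingHom, Polynomial.derivative_map]

end Bridge

/-! ## A valuation of `ℚ̄` above `2` -/

section Two

/-- There is a valuation subring of `ℚ̄` in which `2` is not a unit. -/
theorem exists_valuationSubring_two :
    ∃ A : ValuationSubring (AlgebraicClosure ℚ), (2 : AlgebraicClosure ℚ) ∈ A.nonunits := by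
  let A₀ : Subring (AlgebraicClosure ℚ) := (algebraMap ℤ (AlgebraicClosure ℚ)).range
  let l₀ : A₀ := ⟨(2 : AlgebraicClosure ℚ), ⟨(2 : ℤ), by simp⟩⟩
  have hI : Ideal.span {l₀} ≠ ⊤ := by
    intro h
    rw [Ideal.span_singleton_eq_top] at h
    obtain ⟨⟨m, n, rfl⟩, hm⟩ := h.exists_right_inv
    have h1 : (2 : AlgebraicClosure ℚ) * ((n : ℤ) : AlgebraicClosure ℚ) = 1 := by
      have := congrArg Subtype.val hm
      simpa [l₀] using this
    have h2 : (2 : ℤ) * n = 1 := by exact_mod_cast h1
    omega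
  obtain ⟨A, -, hA⟩ := Ideal.image_subset_nonunits_valuationSubring _ hI
  refine ⟨A, ?_⟩
  apply hA
  exact ⟨l₀, Ideal.subset_span rfl, rfl⟩

variable {K : Type*} [Field K] {Γ₀ : Type*} [LinearOrderedCommGroupWithZero Γ₀]
  (v : Valuation K Γ₀)

theorem val_even_lt_one (h2 : v (2 : K) < 1) {n : ℤ} (hn : Even n) : v (n : K) < 1 := by
  obtain ⟨k, rfl⟩ := hn.two_dvd
  push_cast
  rw [map_mul]
  calc v (2 : K) * v (k : K) ≤ v (2 : K) * 1 := by
        gcongr
        exact val_intCast_le_one v k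
    _ = v (2 : K) := mul_one _
    _ < 1 := h2

theorem val_odd_eq_one (h2 : v (2 : K) < 1) {n : ℤ} (hn : Odd n) : v (n : K) = 1 := by
  obtain ⟨k, rfl⟩ := hn
  have h1 : v (((2 * k : ℤ)) : K) < 1 := val_even_lt_one v h2 (even_two_mul k)
  have h3 : v (((2 * k : ℤ) : K) + 1) = 1 := by
    have := Valuation.map_add_eq_of_lt_left v (x := (1 : K)) (y := ((2 * k : ℤ) : K))
      (by rw [map_one]; exact h1)
    rw [add_comm, this, map_one]
  have : ((2 * k + 1 : ℤ) : K) = ((2 * k : ℤ) : K) + 1 := by push_cast; ring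
  rw [this]
  exact h3

/-- `v₂(r) < 0 → v(r) > 1` for a valuation `v` above `2`. -/
theorem one_lt_val_of_padicValRat_neg [CharZero K] (h2 : v (2 : K) < 1) {r : ℚ}
    (hr : padicValRat 2 r < 0) : 1 < v ((r : ℚ) : K) := by
  have hr0 : r ≠ 0 := by
    rintro rfl
    simp at hr
  have hden : 2 ∣ r.den := by
    have h := hr
    rw [padicValRat_def] at h
    have h1 : 0 < padicValNat 2 r.den := by
      have h0 : (0 : ℤ) ≤ padicValInt 2 r.num := by positivity
      omega
    exact dvd_of_one_le_padicValNat h1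
  have hnum : ¬ (2 : ℤ) ∣ r.num := by
    intro h
    have h1 : 2 ∣ r.num.natAbs := Int.natCast_dvd.mp h
    have h3 : 2 ∣ Nat.gcd r.num.natAbs r.den := Nat.dvd_gcd h1 hden
    have h4 : Nat.gcd r.num.natAbs r.den = 1 := r.reduced
    rw [h4] at h3
    omega
  have hvnum : v ((r.num : ℤ) : K) = 1 :=
    val_odd_eq_one v h2 (Int.not_even_iff_odd.mp fun he => hnum he.two_dvd)
  have hvden : v (((r.den : ℕ) : ℤ) : K) < 1 :=
    val_even_lt_one v h2 ((even_iff_two_dvd).mpr (by exact_mod_cast hden))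
  have hden0 : (((r.den : ℕ) : ℤ) : K) ≠ 0 := by
    have := r.den_ne_zero
    exact_mod_cast this
  have hcast : ((r : ℚ) : K) = ((r.num : ℤ) : K) / (((r.den : ℕ) : ℤ) : K) := by
    rw [Int.cast_natCast]
    exact Rat.cast_def r
  rw [hcast, map_div₀, hvnum]
  have hpos : 0 < v (((r.den : ℕ) : ℤ) : K) := by
    rw [Valuation.pos_iff]
    exact hden0
  rw [one_div]
  exact (one_lt_inv₀ hpos).mpr hvden

end Two

/-! ## Generation of the function field -/

section Gen

variable (N : ℕ) [NeZero N]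

/-- `ℚ̄(X₀(N)) = ℚ̄(j, j_N)`. -/
theorem adjoin_jBar_jNBar_eq_top :
    IntermediateField.adjoin (AlgebraicClosure ℚ)
      ({jBar N, jNBar N} : Set (modularFunctionFieldBar N)) = ⊤ := by
  have h1 := Fermat.Agent.Lib.X0Deg.adjoin_jF_jMF_eq_top N
  have h2 : IntermediateField.adjoin (AlgebraicClosure ℚ)
      (({Fermat.Agent.S24.jF N} : Set (modularFunctionFieldBar N)) ∪ {Fermat.Agent.Lib.X0Deg.jMF N})
        = ⊤ := by
    rw [eq_top_iff]
    intro x _
    have hx : x ∈ IntermediateField.adjoin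
        ↥(IntermediateField.adjoin (AlgebraicClosure ℚ) {Fermat.Agent.S24.jF N})
        {Fermat.Agent.Lib.X0Deg.jMF N} := by
      rw [h1]
      exact IntermediateField.mem_top
    rw [← IntermediateField.adjoin_adjoin_left]
    exact hx
  have h3 : ({jBar N, jNBar N} : Set (modularFunctionFieldBar N)) =
      ({Fermat.Agent.S24.jF N} : Set (modularFunctionFieldBar N)) ∪
        {Fermat.Agent.Lib.X0Deg.jMF N} := by
    rw [Set.singleton_union]
    rfl
  rw [h3]
  exact h2

end Gen

/-! ## The relations `Φ(j, j_p) = 0 = Φ(j_p, j)` in the function field -/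

section Relations

variable (p : ℕ) [NeZero p]

theorem coe_jBar_eq :
    ((jBar p : modularFunctionFieldBar p) : LaurentSeries (AlgebraicClosure ℚ)) =
      qExpand (AlgebraicClosure ℚ) 1 (jqModC (AlgebraicClosure ℚ)) := by
  rw [qExpand_one_apply]
  show coeffEmb (AlgebraicClosure ℚ) jq = _
  rw [← jqModC_rat]
  exact coeffMap_jqModC (algebraMap ℚ (AlgebraicClosure ℚ))

theorem coe_jNBar_eq :
    ((jNBar p : modularFunctionFieldBar p) : LaurentSeries (AlgebraicClosure ℚ)) =
      qExpand (AlgebraicClosure ℚ) (1 * p) (jqModC (AlgebraicClosure ℚ)) := by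
  show coeffEmb (AlgebraicClosure ℚ) (qExpand ℚ p jq) = _
  rw [coeffEmb, Fermat.Agent.Lib.X0Deg.coeffMap_qExpand_comm, ← jqModC_rat, coeffMap_jqModC]
  exact Fermat.Agent.Lib.X0Deg.qExpand_congr_level (one_mul p).symm _

omit [NeZero p] in
/-- `eval2` in the function field versus in `ℚ̄((q))`. -/
theorem eval2_coe (Φ : ℤ[X][X]) (x y : modularFunctionFieldBar p) :
    eval2 Φ x y = 0 ↔
      eval2 Φ (x : LaurentSeries (AlgebraicClosure ℚ)) (y : LaurentSeries (AlgebraicClosure ℚ))
        = 0 :=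
  (Fermat.Agent.S15.H386.eval2_eq_zero_iff_map
    (algebraMap (modularFunctionFieldBar p) (LaurentSeries (AlgebraicClosure ℚ))) Φ x y).symm

end Relations

/-! ## MOD-A2 -/

section Main

variable (p : ℕ) [NeZero p]

/-- **MOD-A2.**  Above a rational `j`-value which is not `2`-integral the place of `ℚ̄(X₀(p))`
with given `(j, j_p)`-values is unique (`p` an odd prime). -/
theorem place_unique (hp : p.Prime) (hp2 : p ≠ 2) (r : ℚ) (hr : padicValRat 2 r < 0)
    (a' : AlgebraicClosure ℚ) (P P' : Place (AlgebraicClosure ℚ) (modularFunctionFieldBar p))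
    (h1 : HasValueAt P (jBar p) (algebraMap ℚ (AlgebraicClosure ℚ) r))
    (h2 : HasValueAt P (jNBar p) a')
    (h1' : HasValueAt P' (jBar p) (algebraMap ℚ (AlgebraicClosure ℚ) r))
    (h2' : HasValueAt P' (jNBar p) a') : P = P' := by
  obtain ⟨Φ, hΦ, hrel⟩ := Fermat.Agent.S15.H386.exists_isModularShape.{0} p hp
  obtain ⟨hrel1, hrel2⟩ := hrel (AlgebraicClosure ℚ) 1
  -- the relations in the function field
  have hF1 : eval2 Φ (jBar p) (jNBar p) = 0 := by
    rw [eval2_coe, coe_jBar_eq, coe_jNBar_eq]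
    exact hrel1
  have hF2 : eval2 Φ (jNBar p) (jBar p) = 0 := by
    rw [eval2_coe, coe_jBar_eq, coe_jNBar_eq]
    exact hrel2
  set r' : AlgebraicClosure ℚ := algebraMap ℚ (AlgebraicClosure ℚ) r with hr'
  -- both places are centred at `(r, a')`
  have hc : IsCentredAt P (jBar p) (jNBar p) r' a' :=
    ⟨(Fermat.Agent.S24.FF.ord_pos_iff_mem_nonunits P (jBar_sub_ne_zero p r')).mp h1,
      (Fermat.Agent.S24.FF.ord_pos_iff_mem_nonunits P (jNBar_sub_ne_zero p a')).mp h2⟩
  have hc' : IsCentredAt P' (jBar p) (jNBar p) r' a' :=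
    ⟨(Fermat.Agent.S24.FF.ord_pos_iff_mem_nonunits P' (jBar_sub_ne_zero p r')).mp h1',
      (Fermat.Agent.S24.FF.ord_pos_iff_mem_nonunits P' (jNBar_sub_ne_zero p a')).mp h2'⟩
  have hcs : IsCentredAt P (jNBar p) (jBar p) a' r' := ⟨hc.hy, hc.hx⟩
  have hcs' : IsCentredAt P' (jNBar p) (jBar p) a' r' := ⟨hc'.hy, hc'.hx⟩
  -- the point lies on the plane model
  have hz1 : eval2 Φ r' a' = 0 := by
    rw [← ev0_bcInt]
    by_contra hne
    exact (hc.ev_unit hne).1 (by rw [ev_bcInt]; exact hF1)
  have hz2 : eval2 Φ a' r' = 0 := by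
    rw [← ev0_bcInt]
    by_contra hne
    exact (hcs.ev_unit hne).1 (by rw [ev_bcInt]; exact hF2)
  -- a valuation above `2`
  obtain ⟨A, hA⟩ := exists_valuationSubring_two
  have hv2 : A.valuation (2 : AlgebraicClosure ℚ) < 1 := (ValuationSubring.mem_nonunits_iff A).mp hA
  have hvr : 1 < A.valuation r' := by
    have := one_lt_val_of_padicValRat_neg A.valuation hv2 hr
    rwa [← eq_ratCast (algebraMap ℚ (AlgebraicClosure ℚ)) r] at this
  have hodd : Odd p := hp.odd_of_ne_two hp2
  have hN0 : A.valuation ((p : ℕ) : AlgebraicClosure ℚ) = 1 := by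
    have := val_odd_eq_one A.valuation hv2 (n := (p : ℤ)) (by exact_mod_cast hodd)
    simpa using this
  have hN1 : A.valuation ((p + 1 : ℕ) : AlgebraicClosure ℚ) < 1 := by
    have he : Even ((p + 1 : ℕ) : ℤ) := by
      have : Even (p + 1) := hodd.add_one
      exact_mod_cast this
    have := val_even_lt_one A.valuation hv2 he
    simpa using this
  have hgen := exists_ev_of_adjoin_eq_top (adjoin_jBar_jNBar_eq_top p)
  have hgen' : ∀ f : modularFunctionFieldBar p, ∃ G H : (AlgebraicClosure ℚ)[X][X],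
      ev (jNBar p) (jBar p) H ≠ 0 ∧ f * ev (jNBar p) (jBar p) H = ev (jNBar p) (jBar p) G := by
    refine exists_ev_of_adjoin_eq_top ?_
    rw [Set.pair_comm]
    exact adjoin_jBar_jNBar_eq_top p
  rcases val_root_of_isModularShape A.valuation hp.pos hΦ hvr hz1 with hcase | hcase
  · -- `v(a') = v(r)^p`: `(r, a')` is a simple point of `Φ(j, j_p) = 0`
    have hd := derivative_ne_zero_of_isModularShape A.valuation hp.pos hΦ hvr hcase hN1 hN0
    have hs : IsSimplePoint (jBar p) (jNBar p) r' a' (bcInt (AlgebraicClosure ℚ) Φ) :=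
      ⟨by rw [ev_bcInt]; exact hF1, by rw [ev0_bcInt]; exact hz1,
        by rw [derivative_bcInt, ev0_bcInt]; exact hd⟩
    exact IsCentredAt.unique hs hgen hc hc'
  · -- `v(a')^p = v(r)`: `(a', r)` is a simple point of `Φ(j_p, j) = 0`
    have hva' : 1 < A.valuation a' := one_lt_of_pow_eq hvr hcase
    have hd := derivative_ne_zero_of_isModularShape A.valuation hp.pos hΦ hva' hcase.symm hN1 hN0
    have hs : IsSimplePoint (jNBar p) (jBar p) a' r' (bcInt (AlgebraicClosure ℚ) Φ) :=
      ⟨by rw [ev_bcInt]; exact hF2, by rw [ev0_bcInt]; exact hz2,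
        by rw [derivative_bcInt, ev0_bcInt]; exact hd⟩
    exact IsCentredAt.unique hs hgen' hcs hcs'

/-- **MOD-A2** in the exact shape of the interface `H542.PlaceUniqueStatement`. -/
theorem placeUniqueStatement : PlaceUniqueStatement :=
  fun p _ hp hp2 r hr a' P P' h1 h2 h1' h2' => place_unique p hp hp2 r hr a' P P' h1 h2 h1' h2'

end Main

end Fermat.Agent.S15.H662
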